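import Mathlib

/-!
# S25 / block HILB, leaf H6 (helper851): contraction of a relative divisor to the second chart

Abstract two-chart situation: `R0`, `R1` commutative rings, `R01` a common localization
(`R01 = R0[1/x] = R1[1/y]`, `x * y = 1` in `R01`), everything over a base ring `A`.
For an ideal `I ⊆ R0` whose quotient is a finite `A`-module, the *contraction*
`contr I := (I · R01) ∩ R1` satisfies

* `exists_mem_contr_isCoprime` : there is `u ∈ contr I` with `IsCoprime u y` (`I1 + (y) = R1`);
* `map_contr` : `contr I · R01 = I · R01`;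
* `contr_fg` : `contr I` is finitely generated if `I` is;
* `contr_invertible` : `contr I` is an invertible `R1`-module if `I` is an invertible `R0`-module
  (and `R1 → R01` is injective);
* `map_contr_baseChange` : contraction commutes with base change.

Also: `invertible_of_contractLeft_surjective` (an ideal with surjective trace is an invertible
module) and `ideal_eq_of_map_eq_of_isCoprime` (an ideal is determined by its localization at `y`
as soon as it contains an element coprime to `y`).
-/

set_option autoImplicit false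

open TensorProduct Polynomial

namespace Fermat.Agent.S25.H851

/-! ## An ideal with surjective trace is an invertible module -/

section Trace

variable {R : Type*} [CommRing R] (I : Ideal R)

/-- For an ideal `I`, functionals are "symmetric": `φ m • m' = φ m' • m`. -/
theorem ideal_dual_symm (φ : Module.Dual R I) (m m' : I) : φ m • m' = φ m' • m := by
  apply Subtype.ext
  have h1 : φ m * (m' : R) = φ ((m' : R) • m) := by rw [map_smul, smul_eq_mul, mul_comm]
  have h2 : φ m' * (m : R) = φ ((m : R) • m') := by rw [map_smul, smul_eq_mul, mul_comm]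
  have h3 : (m' : R) • m = (m : R) • m' := by
    apply Subtype.ext
    simp [mul_comm]
  simp only [Submodule.coe_smul, smul_eq_mul]
  rw [h1, h2, h3]

/-- For an ideal `I`: `ev s • t = ev t • s` in `I^* ⊗ I`. -/
theorem ideal_contractLeft_smul_comm (s t : Module.Dual R I ⊗[R] I) :
    contractLeft R I s • t = contractLeft R I t • s := by
  induction s using TensorProduct.induction_on with
  | zero => simp
  | add s₁ s₂ h₁ h₂ => rw [map_add, add_smul, h₁, h₂, smul_add]
  | tmul φ m =>
    induction t using TensorProduct.induction_on with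
    | zero => simp
    | add t₁ t₂ h₁ h₂ => rw [map_add, add_smul, smul_add, h₁, h₂]
    | tmul φ' m' =>
      simp only [contractLeft_apply]
      -- `φ m • (φ' ⊗ m') = φ' m' • (φ ⊗ m)`
      have e1 : φ m • φ' = φ' m • φ := by
        ext z
        simp only [LinearMap.smul_apply, smul_eq_mul]
        have := congrArg φ' (ideal_dual_symm I φ m z)
        rw [map_smul, map_smul, smul_eq_mul, smul_eq_mul] at this
        rw [this, mul_comm]
      calc φ m • (φ' ⊗ₜ[R] m') = (φ m • φ') ⊗ₜ[R] m' := by rw [TensorProduct.smul_tmul']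
        _ = (φ' m • φ) ⊗ₜ[R] m' := by rw [e1]
        _ = φ ⊗ₜ[R] (φ' m • m') := by rw [TensorProduct.smul_tmul]
        _ = φ ⊗ₜ[R] (φ' m' • m) := by rw [ideal_dual_symm I φ' m m']
        _ = φ' m' • (φ ⊗ₜ[R] m) := by rw [TensorProduct.tmul_smul]

/-- **Trace criterion.** An ideal whose trace map `I^* ⊗ I → R` is surjective is an invertible
module. -/
theorem invertible_of_contractLeft_surjective
    (h : Function.Surjective (contractLeft R I)) : Module.Invertible R I := by
  obtain ⟨t, ht⟩ := h 1
  refine ⟨⟨?_, h⟩⟩
  rw [injective_iff_map_eq_zero]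
  intro s hs
  have := ideal_contractLeft_smul_comm I s t
  rw [hs, ht, zero_smul, one_smul] at this
  exact this.symm

/-- Variant of the trace criterion: it is enough that `1` is a sum of values `φ m`. -/
theorem invertible_of_one_mem_trace
    (h : (1 : R) ∈ Ideal.span {r : R | ∃ (φ : Module.Dual R I) (m : I), φ m = r}) :
    Module.Invertible R I := by
  apply invertible_of_contractLeft_surjective
  rw [← LinearMap.range_eq_top]
  have hle : Ideal.span {r : R | ∃ (φ : Module.Dual R I) (m : I), φ m = r} ≤
      LinearMap.range (contractLeft R I) := by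
    rw [Ideal.span_le]
    rintro r ⟨φ, m, rfl⟩
    exact ⟨φ ⊗ₜ[R] m, by simp [contractLeft_apply]⟩
  exact (Ideal.eq_top_iff_one _).mpr (hle h)

end Trace

/-! ## Uniqueness: an ideal containing an element coprime to `y` is determined by its
localization at `y` -/

section Unique

variable {R S : Type*} [CommRing R] [CommRing S] [Algebra R S] (y : R) [IsLocalization.Away y S]

/-- If `j a ∈ J · S` (`S = R[1/y]`), then `y ^ n * a ∈ J` for some `n`. -/
theorem exists_pow_mul_mem_of_map_mem {J : Ideal R} {a : R}
    (h : algebraMap R S a ∈ J.map (algebraMap R S)) : ∃ n : ℕ, y ^ n * a ∈ J := by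
  rw [IsLocalization.mem_map_algebraMap_iff (Submonoid.powers y)] at h
  obtain ⟨⟨⟨b, hb⟩, ⟨_, n, rfl⟩⟩, hbs⟩ := h
  simp only at hbs
  rw [← map_mul] at hbs
  obtain ⟨⟨_, m, rfl⟩, hm⟩ := (IsLocalization.eq_iff_exists (Submonoid.powers y) S).mp hbs
  simp only at hm
  refine ⟨m + n, ?_⟩
  have : y ^ (m + n) * a = y ^ m * b := by
    rw [pow_add, mul_assoc, mul_comm (y ^ n) a, hm]
  rw [this]
  exact J.mul_mem_left _ hb

theorem le_of_map_le_of_isCoprime {J J' : Ideal R} {u : R} (hu' : u ∈ J') (hc : IsCoprime u y)
    (h : J.map (algebraMap R S) ≤ J'.map (algebraMap R S)) : J ≤ J' := by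
  intro a ha
  obtain ⟨n, hn⟩ := exists_pow_mul_mem_of_map_mem (S := S) y (J := J') (a := a)
    (h (Ideal.mem_map_of_mem _ ha))
  obtain ⟨r, s, hrs⟩ := (hc.pow_right (n := n))
  have : a = r * (u * a) + s * (y ^ n * a) := by
    calc a = (r * u + s * y ^ n) * a := by rw [hrs, one_mul]
      _ = _ := by ring
  rw [this]
  exact J'.add_mem (J'.mul_mem_left _ (J'.mul_mem_right _ hu')) (J'.mul_mem_left _ hn)

/-- **Uniqueness.** Two ideals with the same localization at `y`, both containing an element
coprime to `y`, are equal. -/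
theorem ideal_eq_of_map_eq_of_isCoprime {J J' : Ideal R} {u u' : R} (hu : u ∈ J) (hu' : u' ∈ J')
    (hc : IsCoprime u y) (hc' : IsCoprime u' y)
    (h : J.map (algebraMap R S) = J'.map (algebraMap R S)) : J = J' :=
  le_antisymm (le_of_map_le_of_isCoprime y hu' hc' h.le)
    (le_of_map_le_of_isCoprime y hu hc h.ge)

end Unique

/-! ## The contraction -/

section Contraction

variable {A R0 R1 R01 : Type*} [CommRing A] [CommRing R0] [CommRing R1] [CommRing R01]
  [Algebra R0 R01] [Algebra R1 R01]

/-- The contraction to `R1` of the extension to `R01` of an ideal of `R0`. -/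
def contr (R1 : Type*) (R01 : Type*) [CommRing R1] [CommRing R01] [Algebra R0 R01]
    [Algebra R1 R01] (I : Ideal R0) : Ideal R1 :=
  (I.map (algebraMap R0 R01)).comap (algebraMap R1 R01)

theorem mem_contr {I : Ideal R0} {b : R1} :
    b ∈ contr R1 R01 I ↔ algebraMap R1 R01 b ∈ I.map (algebraMap R0 R01) := Iff.rfl

/-- **T2.** `contr I · R01 = I · R01`. -/
theorem map_contr (y : R1) [IsLocalization.Away y R01] (I : Ideal R0) :
    (contr R1 R01 I).map (algebraMap R1 R01) = I.map (algebraMap R0 R01) :=
  IsLocalization.map_under (Submonoid.powers y) R01 _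

variable [Algebra A R0] [Algebra A R1] [Algebra A R01] [IsScalarTower A R0 R01]
  [IsScalarTower A R1 R01]

/-- **T0.** If `R0 ⧸ I` is a finite `A`-module, every element of `R0` satisfies a monic equation
over `A` modulo `I`. -/
theorem exists_monic_aeval_mem (I : Ideal R0) [Module.Finite A (R0 ⧸ I)] (x : R0) :
    ∃ p : A[X], p.Monic ∧ aeval x p ∈ I := by
  have hint : IsIntegral A (Ideal.Quotient.mk I x) :=
    Algebra.IsIntegral.isIntegral (R := A) _
  obtain ⟨p, hp, hp0⟩ := hint
  refine ⟨p, hp, ?_⟩
  rw [← Ideal.Quotient.eq_zero_iff_mem, ← hp0]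
  have : (Ideal.Quotient.mk I) (aeval x p) = aeval (Ideal.Quotient.mk I x) p := by
    have := Polynomial.aeval_algHom_apply (Ideal.Quotient.mkₐ A I) x p
    simpa using this.symm
  rw [this]
  rfl

/-- **T1.** The contraction contains an element `u` coprime to `y` (in fact `u ≡ 1 mod y`). -/
theorem exists_mem_contr_isCoprime (x : R0) (y : R1)
    (hxy : algebraMap R0 R01 x * algebraMap R1 R01 y = 1)
    (I : Ideal R0) [Module.Finite A (R0 ⧸ I)] :
    ∃ u ∈ contr R1 R01 I, ∃ r : R1, u = 1 + r * y := by
  obtain ⟨p, hp, hpI⟩ := exists_monic_aeval_mem (A := A) I x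
  refine ⟨aeval y p.reverse, ?_, ?_⟩
  · rw [mem_contr]
    let _ : Invertible (algebraMap R0 R01 x) :=
      ⟨algebraMap R1 R01 y, by rw [mul_comm]; exact hxy, hxy⟩
    have h1 := Polynomial.eval₂_reverse_mul_pow (algebraMap A R01) (algebraMap R0 R01 x) p
    have h2 : algebraMap R1 R01 (aeval y p.reverse) =
        eval₂ (algebraMap A R01) (⅟(algebraMap R0 R01 x)) p.reverse := by
      rw [aeval_def, hom_eval₂, ← IsScalarTower.algebraMap_eq]
      rfl
    have h3 : algebraMap R0 R01 (aeval x p) = eval₂ (algebraMap A R01) (algebraMap R0 R01 x) p := by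
      rw [aeval_def, hom_eval₂, ← IsScalarTower.algebraMap_eq]
    have h4 : algebraMap R1 R01 (aeval y p.reverse) =
        algebraMap R0 R01 (aeval x p) * (algebraMap R1 R01 y) ^ p.natDegree := by
      rw [h3, ← h1, h2, mul_assoc, ← mul_pow, hxy, one_pow, mul_one]
    rw [h4]
    exact Ideal.mul_mem_right _ _ (Ideal.mem_map_of_mem _ hpI)
  · have hdvd : (X : A[X]) ∣ p.reverse - C (p.reverse.coeff 0) := Polynomial.X_dvd_sub_C
    obtain ⟨q, hq⟩ := hdvd
    refine ⟨aeval y q, ?_⟩
    have h0 : p.reverse.coeff 0 = 1 := by rw [coeff_zero_reverse, hp.leadingCoeff]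
    have : p.reverse = 1 + X * q := by
      rw [← hq, h0, map_one]; ring
    conv_lhs => rw [this]
    simp [mul_comm]

end Contraction

/-! ## Finite generation and invertibility of the contraction -/

section Invertible

variable {R0 R1 R01 : Type*} [CommRing R0] [CommRing R1] [CommRing R01]
  [Algebra R0 R01] [Algebra R1 R01]

/-- **Finite generation.** If `I` is finitely generated and the contraction contains an element
coprime to `y`, then the contraction is finitely generated. -/
theorem contr_fg (y : R1) [IsLocalization.Away y R01] (I : Ideal R0) (hI : I.FG)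
    {u : R1} (hu : u ∈ contr R1 R01 I) (hc : IsCoprime u y) : (contr R1 R01 I).FG := by
  have hspan : Ideal.span ({u, y} : Set R1) = ⊤ := by
    rw [Ideal.eq_top_iff_one]
    obtain ⟨r, s, hrs⟩ := hc
    rw [← hrs]
    exact Ideal.add_mem _ (Ideal.mul_mem_left _ _ (Ideal.subset_span (by simp)))
      (Ideal.mul_mem_left _ _ (Ideal.subset_span (by simp)))
  refine Ideal.fg_of_localizationSpan ({u, y} : Set R1) hspan ?_
  rintro ⟨g, hg⟩
  rcases hg with rfl | hg
  · -- at `u` the ideal becomes the unit ideal
    have : (contr R1 R01 I).map (algebraMap R1 (Localization.Away g)) = ⊤ := by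
      apply Ideal.eq_top_of_isUnit_mem _ (Ideal.mem_map_of_mem _ hu)
      exact IsLocalization.Away.algebraMap_isUnit g
    rw [this]
    exact ⟨{1}, by simp⟩
  · -- at `y` the ideal becomes `I · R01`
    rw [Set.mem_singleton_iff] at hg
    subst hg
    let e : R01 ≃ₐ[R1] Localization.Away g :=
      IsLocalization.algEquiv (Submonoid.powers g) R01 (Localization.Away g)
    have h1 : (contr R1 R01 I).map (algebraMap R1 (Localization.Away g)) =
        ((contr R1 R01 I).map (algebraMap R1 R01)).map (e : R01 →+* Localization.Away g) := by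
      rw [Ideal.map_map]
      congr 1
      ext r
      simp [e]
    rw [h1, map_contr g I]
    exact (hI.map _).map _

variable (x : R0) (y : R1) [IsLocalization.Away x R01] [IsLocalization.Away y R01]

/-- The localization at `x` of a functional on `I`, as an `R01`-linear functional on `I · R01`. -/
noncomputable def locDual (I : Ideal R0) (ψ : Module.Dual R0 I) :
    Module.Dual R01 (I.map (algebraMap R0 R01)) :=
  (IsLocalizedModule.map (Submonoid.powers x) (Algebra.idealMap R01 I)
    (Algebra.linearMap R0 R01) ψ).extendScalarsOfIsLocalization (Submonoid.powers x) R01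

theorem locDual_apply (I : Ideal R0) (ψ : Module.Dual R0 I) (a : I) :
    locDual x I ψ (Algebra.idealMap R01 I a) = algebraMap R0 R01 (ψ a) := by
  simp only [locDual, LinearMap.extendScalarsOfIsLocalization_apply']
  rw [IsLocalizedModule.map_apply]
  rfl

/-- The inclusion of the contraction into `I · R01`, as an `R1`-linear map. -/
def contrIncl (I : Ideal R0) :
    contr R1 R01 I →ₗ[R1] (I.map (algebraMap R0 R01)) where
  toFun c := ⟨algebraMap R1 R01 c.1, c.2⟩
  map_add' a b := by
    apply Subtype.ext
    simp
  map_smul' r a := by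
    apply Subtype.ext
    simp [Algebra.smul_def]

@[simp] theorem contrIncl_coe (I : Ideal R0) (c : contr R1 R01 I) :
    ((contrIncl (R1 := R1) (R01 := R01) I c : I.map (algebraMap R0 R01)) : R01) =
      algebraMap R1 R01 c.1 := rfl

/-- The `R1`-linear map `contr I → R01` induced by a functional on `I`. -/
noncomputable def contrDualAux (I : Ideal R0) (ψ : Module.Dual R0 I) :
    contr R1 R01 I →ₗ[R1] R01 :=
  ((locDual x I ψ).restrictScalars R1) ∘ₗ contrIncl I

theorem contrDualAux_apply (I : Ideal R0) (ψ : Module.Dual R0 I) (c : contr R1 R01 I) :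
    contrDualAux (R1 := R1) x I ψ c = locDual x I ψ (contrIncl I c) := rfl

/-- Uniform denominators: for finitely generated `contr I`, some power of `y` moves all values of
`contrDualAux` into the image of `R1`. -/
theorem exists_pow_mul_contrDualAux_mem_range (I : Ideal R0) (hfg : (contr R1 R01 I).FG)
    (ψ : Module.Dual R0 I) :
    ∃ N : ℕ, ∀ c : contr R1 R01 I,
      (y ^ N) • contrDualAux (R1 := R1) x I ψ c ∈ LinearMap.range (Algebra.linearMap R1 R01) := by
  classical
  have hfin : Module.Finite R1 (contr R1 R01 I) := Module.Finite.iff_fg.mpr hfg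
  obtain ⟨T, hT⟩ := hfin.fg_top
  have hind : ∀ c : contr R1 R01 I, ∃ n : ℕ,
      (y ^ n) • contrDualAux (R1 := R1) x I ψ c ∈ LinearMap.range (Algebra.linearMap R1 R01) := by
    intro c
    obtain ⟨n, a, ha⟩ := IsLocalization.Away.surj y (contrDualAux (R1 := R1) x I ψ c)
    refine ⟨n, a, ?_⟩
    rw [Algebra.linearMap_apply, ← ha, Algebra.smul_def, map_pow, mul_comm]
  choose Nf hNf using hind
  refine ⟨T.sup Nf, fun c => ?_⟩
  have hc : c ∈ Submodule.span R1 (T : Set (contr R1 R01 I)) := by rw [hT]; trivial
  induction hc using Submodule.span_induction with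
  | mem c hcT =>
    have hle : Nf c ≤ T.sup Nf := Finset.le_sup (f := Nf) hcT
    obtain ⟨d, hd⟩ := Nat.exists_eq_add_of_le hle
    rw [hd, pow_add, mul_comm, mul_smul]
    exact Submodule.smul_mem _ _ (hNf c)
  | zero => simp
  | add a b _ _ ha hb =>
    rw [map_add, smul_add]
    exact Submodule.add_mem _ ha hb
  | smul r a _ ha =>
    rw [map_smul, smul_comm]
    exact Submodule.smul_mem _ _ ha

variable {x y}

/-- The functional on the contraction induced by a functional `ψ` on `I` and a uniform
exponent `N`. -/
noncomputable def contrDual (hinj : Function.Injective (Algebra.linearMap R1 R01)) (I : Ideal R0)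
    (ψ : Module.Dual R0 I) (N : ℕ)
    (hN : ∀ c : contr R1 R01 I,
      (y ^ N) • contrDualAux (R1 := R1) x I ψ c ∈ LinearMap.range (Algebra.linearMap R1 R01)) :
    Module.Dual R1 (contr R1 R01 I) :=
  (LinearEquiv.ofInjective (Algebra.linearMap R1 R01) hinj).symm.toLinearMap ∘ₗ
    LinearMap.codRestrict (LinearMap.range (Algebra.linearMap R1 R01))
      ((y ^ N) • contrDualAux (R1 := R1) x I ψ) hN

omit [IsLocalization.Away y R01] in
theorem algebraMap_contrDual (hinj : Function.Injective (Algebra.linearMap R1 R01)) (I : Ideal R0)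
    (ψ : Module.Dual R0 I) (N : ℕ)
    (hN : ∀ c : contr R1 R01 I,
      (y ^ N) • contrDualAux (R1 := R1) x I ψ c ∈ LinearMap.range (Algebra.linearMap R1 R01))
    (c : contr R1 R01 I) :
    algebraMap R1 R01 (contrDual hinj I ψ N hN c) =
      algebraMap R1 R01 y ^ N * contrDualAux (R1 := R1) x I ψ c := by
  have h := (LinearEquiv.ofInjective (Algebra.linearMap R1 R01) hinj).apply_symm_apply
    (LinearMap.codRestrict (LinearMap.range (Algebra.linearMap R1 R01))
      ((y ^ N) • contrDualAux (R1 := R1) x I ψ) hN c)
  have h2 := congrArg Subtype.val h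
  rw [LinearEquiv.ofInjective_apply] at h2
  simp only [LinearMap.codRestrict_apply, LinearMap.smul_apply, Algebra.linearMap_apply] at h2
  rw [contrDual, LinearMap.comp_apply, LinearEquiv.coe_coe, h2, Algebra.smul_def, map_pow]

end Invertible

section Invertible2

variable {R0 R1 R01 : Type*} [CommRing R0] [CommRing R1] [CommRing R01]
  [Algebra R0 R01] [Algebra R1 R01]

/-- Key step: every value `ψ a` of a functional on `I` becomes, after multiplication by a power
of `y`, a value of a functional on the contraction. -/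
theorem exists_contrDual_eq (x : R0) (y : R1) [IsLocalization.Away x R01]
    [IsLocalization.Away y R01] (hinj : Function.Injective (algebraMap R1 R01)) (I : Ideal R0)
    (hfg : (contr R1 R01 I).FG) (ψ : Module.Dual R0 I) (a : I) :
    ∃ (M : ℕ) (Ψ : Module.Dual R1 (contr R1 R01 I)) (b : contr R1 R01 I),
      algebraMap R1 R01 (Ψ b) = algebraMap R1 R01 y ^ M * algebraMap R0 R01 (ψ a) := by
  obtain ⟨N, hN⟩ := exists_pow_mul_contrDualAux_mem_range x y I hfg ψ
  obtain ⟨n, b, hb⟩ := IsLocalization.Away.surj y (algebraMap R0 R01 (a : R0))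
  have hbmem : b ∈ contr R1 R01 I := by
    rw [mem_contr, ← hb]
    exact Ideal.mul_mem_right _ _ (Ideal.mem_map_of_mem _ a.2)
  have hinj' : Function.Injective (Algebra.linearMap R1 R01) := hinj
  refine ⟨N + n, contrDual hinj' I ψ N hN, ⟨b, hbmem⟩, ?_⟩
  rw [algebraMap_contrDual, contrDualAux_apply]
  have hincl : contrIncl (R1 := R1) (R01 := R01) I ⟨b, hbmem⟩ =
      (algebraMap R1 R01 y ^ n) • Algebra.idealMap R01 I a := by
    apply Subtype.ext
    simp only [contrIncl_coe, Submodule.coe_smul, smul_eq_mul]
    rw [← hb, mul_comm]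
    rfl
  rw [hincl, map_smul, locDual_apply, smul_eq_mul, pow_add, mul_assoc]

/-- The trace ideal of the contraction contains a power of `y`. -/
theorem exists_pow_mem_trace (x : R0) (y : R1) [IsLocalization.Away x R01]
    [IsLocalization.Away y R01] (hinj : Function.Injective (algebraMap R1 R01)) (I : Ideal R0)
    [Module.Invertible R0 I] (hfg : (contr R1 R01 I).FG) :
    ∃ M : ℕ, y ^ M ∈ Ideal.span
      {r : R1 | ∃ (φ : Module.Dual R1 (contr R1 R01 I)) (m : contr R1 R01 I), φ m = r} := by
  set τ : Ideal R1 := Ideal.span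
      {r : R1 | ∃ (φ : Module.Dual R1 (contr R1 R01 I)) (m : contr R1 R01 I), φ m = r} with hτ
  have key : ∀ t : Module.Dual R0 I ⊗[R0] I, ∃ (M : ℕ) (v : R1), v ∈ τ ∧
      algebraMap R1 R01 v = algebraMap R1 R01 y ^ M * algebraMap R0 R01 (contractLeft R0 I t) := by
    intro t
    induction t using TensorProduct.induction_on with
    | zero => exact ⟨0, 0, τ.zero_mem, by simp⟩
    | tmul ψ a =>
      obtain ⟨M, Ψ, b, h⟩ := exists_contrDual_eq x y hinj I hfg ψ a
      exact ⟨M, Ψ b, Ideal.subset_span ⟨Ψ, b, rfl⟩, by rw [h, contractLeft_apply]⟩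
    | add t₁ t₂ h₁ h₂ =>
      obtain ⟨M₁, v₁, hv₁, e₁⟩ := h₁
      obtain ⟨M₂, v₂, hv₂, e₂⟩ := h₂
      refine ⟨M₁ + M₂, y ^ M₂ * v₁ + y ^ M₁ * v₂,
        τ.add_mem (τ.mul_mem_left _ hv₁) (τ.mul_mem_left _ hv₂), ?_⟩
      simp only [map_add, map_mul, map_pow, e₁, e₂]
      ring
  obtain ⟨t, ht⟩ := (Module.Invertible.bijective (R := R0) (M := I)).2 1
  obtain ⟨M, v, hv, e⟩ := key t
  refine ⟨M, ?_⟩
  have : v = y ^ M := by
    apply hinj
    rw [e, ht, map_one, mul_one, map_pow]
  rw [← this]
  exact hv

/-- **T3.** The contraction of an invertible ideal is an invertible `R1`-module, provided it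
contains an element coprime to `y` and `R1 → R01` is injective. -/
theorem contr_invertible_of_isCoprime (x : R0) (y : R1) [IsLocalization.Away x R01]
    [IsLocalization.Away y R01] (hinj : Function.Injective (algebraMap R1 R01))
    (I : Ideal R0) [Module.Invertible R0 I] {u : R1} (hu : u ∈ contr R1 R01 I)
    (hc : IsCoprime u y) : Module.Invertible R1 (contr R1 R01 I) := by
  have hIfg : I.FG := Module.Finite.iff_fg.mp inferInstance
  have hfg : (contr R1 R01 I).FG := contr_fg y I hIfg hu hc
  obtain ⟨M, hM⟩ := exists_pow_mem_trace x y hinj I hfg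
  apply invertible_of_one_mem_trace
  obtain ⟨r, s, hrs⟩ := (hc.pow_right (n := M))
  rw [← hrs]
  refine Ideal.add_mem _ (Ideal.mul_mem_left _ _ ?_) (Ideal.mul_mem_left _ _ hM)
  exact Ideal.subset_span ⟨Submodule.subtype _, ⟨u, hu⟩, rfl⟩

/-- The contraction localizes (at `y`) to `I · R01`: together with Mathlib's
`Algebra.idealMap_isLocalizedModule` (localization of `I` at `x`) this is the gluing datum
`(I, contr I, I · R01)`. -/
instance contrIncl_isLocalizedModule (y : R1) [IsLocalization.Away y R01] (I : Ideal R0) :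
    IsLocalizedModule (Submonoid.powers y) (contrIncl (R1 := R1) (R01 := R01) I) where
  map_units s :=
    (Module.End.isUnit_iff _).mpr ⟨fun a b e ↦ Subtype.ext
      ((IsLocalization.map_units R01 s).mul_right_injective
        (by simpa [Algebra.smul_def] using congr(($e).1))),
      fun a ↦ ⟨⟨_, Ideal.mul_mem_left _ (IsLocalization.map_units R01 s).unit⁻¹.1 a.2⟩,
        Subtype.ext (by simp [Algebra.smul_def, ← mul_assoc])⟩⟩
  surj z := by
    have hz : (z : R01) ∈ (contr R1 R01 I).map (algebraMap R1 R01) := by
      rw [map_contr y I]; exact z.2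
    obtain ⟨w, hw⟩ := (IsLocalization.mem_map_algebraMap_iff (Submonoid.powers y) R01).mp hz
    exact ⟨w, Subtype.ext (by simp [Submonoid.smul_def, Algebra.smul_def, mul_comm, hw])⟩
  exists_of_eq h :=
    ⟨_, Subtype.ext (IsLocalization.exists_of_eq (M := Submonoid.powers y) congr(($h).1)).choose_spec⟩

/-- `R1 → R01 = R1[1/y]` is injective when `y` is a nonzerodivisor. -/
theorem algebraMap_injective_of_mem_nonZeroDivisors (y : R1) [IsLocalization.Away y R01]
    (hy : y ∈ nonZeroDivisors R1) : Function.Injective (algebraMap R1 R01) :=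
  IsLocalization.injective R01 (M := Submonoid.powers y)
    (Submonoid.powers_le.mpr hy)

/-- **T3 (final form).** In the two-chart situation over `A`: if `R0 ⧸ I` is a finite
`A`-module and `I` is an invertible `R0`-module, then the contraction of `I` is an invertible
`R1`-module. -/
theorem contr_invertible {A : Type*} [CommRing A] [Algebra A R0] [Algebra A R1] [Algebra A R01]
    [IsScalarTower A R0 R01] [IsScalarTower A R1 R01]
    (x : R0) (y : R1) [IsLocalization.Away x R01] [IsLocalization.Away y R01]
    (hxy : algebraMap R0 R01 x * algebraMap R1 R01 y = 1)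
    (hinj : Function.Injective (algebraMap R1 R01))
    (I : Ideal R0) [Module.Finite A (R0 ⧸ I)] [Module.Invertible R0 I] :
    Module.Invertible R1 (contr R1 R01 I) := by
  obtain ⟨u, hu, r, hr⟩ := exists_mem_contr_isCoprime (A := A) x y hxy I
  refine contr_invertible_of_isCoprime x y hinj I hu ⟨1, -r, ?_⟩
  rw [hr]; ring

end Invertible2

/-! ## Base change -/

section BaseChange

variable {R0 R1 R01 R0' R1' R01' : Type*} [CommRing R0] [CommRing R1] [CommRing R01]
  [CommRing R0'] [CommRing R1'] [CommRing R01']
  [Algebra R0 R01] [Algebra R1 R01] [Algebra R0' R01'] [Algebra R1' R01']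

/-- **T4.** Contraction commutes with base change: for compatible ring maps
`f0 : R0 → R0'`, `f1 : R1 → R1'`, `f01 : R01 → R01'` between two two-chart situations,
`contr I · R1' = contr (I · R0')`, as soon as `contr I` contains an element coprime to `y`. -/
theorem map_contr_baseChange (y : R1) [IsLocalization.Away y R01]
    (f0 : R0 →+* R0') (f1 : R1 →+* R1') (f01 : R01 →+* R01')
    (h0 : f01.comp (algebraMap R0 R01) = (algebraMap R0' R01').comp f0)
    (h1 : f01.comp (algebraMap R1 R01) = (algebraMap R1' R01').comp f1)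
    [IsLocalization.Away (f1 y) R01']
    (I : Ideal R0) {u : R1} (hu : u ∈ contr R1 R01 I) (hc : IsCoprime u y) :
    (contr R1 R01 I).map f1 = contr R1' R01' (I.map f0) := by
  have hmap : ((I.map (algebraMap R0 R01)).map f01) = (I.map f0).map (algebraMap R0' R01') := by
    rw [Ideal.map_map, Ideal.map_map, h0]
  have hu' : f1 u ∈ contr R1' R01' (I.map f0) := by
    rw [mem_contr, ← hmap]
    have : algebraMap R1' R01' (f1 u) = f01 (algebraMap R1 R01 u) := by
      have := congrArg (fun g : R1 →+* R01' => g u) h1
      simpa using this.symm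
    rw [this]
    exact Ideal.mem_map_of_mem _ hu
  refine ideal_eq_of_map_eq_of_isCoprime (S := R01') (f1 y) (Ideal.mem_map_of_mem _ hu) hu'
    (hc.map f1) (hc.map f1) ?_
  rw [map_contr (f1 y) (I.map f0), Ideal.map_map, ← h1, ← Ideal.map_map, map_contr y I, hmap]

end BaseChange

end Fermat.Agent.S25.H851
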