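import Fermat.Agent.S25.H851.ACIso

/-!
# S25 / ALGCHARTS, PT-ISO under the weak section condition (helper851)

`isIso_of_sect`: two gluing data over `A` carrying sections `s`, `s'` of the `n`-th twist with
`GenModY` and divisor `univIdeal.map φ₀ · I_q` are isomorphic.  No `P1`, no `IsGen.span`, no
unit condition: this is the form needed by the assembly of COVER (`SectIso`).
-/

set_option autoImplicit false

universe u

open scoped TensorProduct

namespace Fermat.Agent.S25.H851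

open Fermat.Agent.S25 Fermat.Agent.S25.H11

variable {k : Type u} [Field k]
  {B₀ B₁ B₀₁ : Type u} [CommRing B₀] [CommRing B₁] [CommRing B₀₁]
  [Algebra k B₀] [Algebra k B₁] [Algebra k B₀₁] [Algebra B₀ B₀₁] [Algebra B₁ B₀₁]
  [IsScalarTower k B₀ B₀₁] [IsScalarTower k B₁ B₀₁]
  {x : B₀} {y : B₁} {e : B₁ →ₐ[k] k}
  {A : Type u} [CommRing A] [Algebra k A]

/-- **SectIso.** Two gluing data with sections of the `n`-th twist, generating modulo `y`, of
divisor `univIdeal.map φ₀ · I_q` are isomorphic. -/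
theorem isIso_of_sect (hC : IsCurveChart k B₀ B₁ B₀₁ x y e) (n : ℕ) {g m : ℕ} (β : Fin g → B₀)
    (q : Fin m → (B₀ →ₐ[k] k)) (φ₀ : H491.Rβ k β →ₐ[k] A) {G G' : CurveGD k B₀ B₁ B₀₁ A}
    (h : ∃ s ∈ sec x n G, GenModY y G s.2 ∧
      Submodule.span (A ⊗[k] B₀) {s.1} =
        ((H491.univIdeal (k := k) β).map (H491.bc B₀ φ₀) * ptIdeal q A) •
          (⊤ : Submodule (A ⊗[k] B₀) G.N₀))
    (h' : ∃ s ∈ sec x n G', GenModY y G' s.2 ∧
      Submodule.span (A ⊗[k] B₀) {s.1} =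
        ((H491.univIdeal (k := k) β).map (H491.bc B₀ φ₀) * ptIdeal q A) •
          (⊤ : Submodule (A ⊗[k] B₀) G'.N₀)) :
    G.IsIso G' := by
  obtain ⟨s, hs, hgen, hspan⟩ := h
  obtain ⟨s', hs', hgen', hspan'⟩ := h'
  obtain ⟨t, ht, htr⟩ := exists_nonZeroDivisor_mem_chart hC β q φ₀
  exact curveGD_isIso_of_sections hC n _ ht htr s s' hs hs' hgen hgen' hspan hspan'

/-- The same for any ideal `J` with `(A ⊗ B₀) ⧸ J` a finite `A`-module. -/
theorem isIso_of_sect_of_finite (hC : IsCurveChart k B₀ B₁ B₀₁ x y e) (n : ℕ)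
    (J : Ideal (A ⊗[k] B₀)) [Module.Finite A ((A ⊗[k] B₀) ⧸ J)] {G G' : CurveGD k B₀ B₁ B₀₁ A}
    (h : ∃ s ∈ sec x n G, GenModY y G s.2 ∧
      Submodule.span (A ⊗[k] B₀) {s.1} = J • (⊤ : Submodule (A ⊗[k] B₀) G.N₀))
    (h' : ∃ s ∈ sec x n G', GenModY y G' s.2 ∧
      Submodule.span (A ⊗[k] B₀) {s.1} = J • (⊤ : Submodule (A ⊗[k] B₀) G'.N₀)) :
    G.IsIso G' := by
  obtain ⟨s, hs, hgen, hspan⟩ := h
  obtain ⟨s', hs', hgen', hspan'⟩ := h'
  obtain ⟨P, hP, hPJ⟩ := exists_monic_aeval_mem (A := A) J ((1 : A) ⊗ₜ[k] x)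
  exact curveGD_isIso_of_sections hC n J hPJ (aeval_monic_mem_nonZeroDivisors hC hP) s s' hs hs'
    hgen hgen' hspan hspan'

end Fermat.Agent.S25.H851
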