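import Mathlib
import Fermat.Agent.S25.DefsAlg
import Fermat.Agent.S25.H325.GDCIdeal

/-!
# S25 / ALGCHARTS C1 (helper851): base change of ideal gluing data

* `isSemilinearBaseChange_of_span` : a semilinear map between invertible modules whose image
  spans the target is a (semilinear) base change.
* `idealSL` : the restriction of a ring homomorphism to ideals, as a semilinear map.
* `idealGD_isBC` : the gluing datum `H325.idealGD` of a compatible pair of invertible ideals is
  compatible with base change along a morphism of cospans.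
-/

set_option autoImplicit false
set_option linter.style.haveILetI false

universe u

open TensorProduct

namespace Fermat.Agent.S25.H851

open Fermat.Agent.S25

section Semilinear

variable {R R' : Type u} [CommRing R] [CommRing R'] (ρ : R →+* R')
  {N N' : Type u} [AddCommGroup N] [Module R N] [AddCommGroup N'] [Module R' N']

/-- A semilinear map between invertible modules whose image spans the target is a semilinear
base change. -/
theorem isSemilinearBaseChange_of_span [Module.Invertible R N] [Module.Invertible R' N']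
    (b : N →ₛₗ[ρ] N') (hspan : Submodule.span R' (Set.range b) = ⊤) :
    IsSemilinearBaseChange ρ b := by
  letI : Algebra R R' := ρ.toAlgebra
  letI : Module R N' := Module.compHom N' ρ
  haveI : IsScalarTower R R' N' := ⟨fun r r' n => by
    change (ρ r * r') • n = ρ r • (r' • n); rw [mul_smul]⟩
  let bL : N →ₗ[R] N' :=
    { toFun := fun n => b n
      map_add' := fun m n => b.map_add m n
      map_smul' := fun r n => LinearMap.map_smulₛₗ b r n }
  show IsBaseChange R' bL
  have hsurj : Function.Surjective (bL.liftBaseChange R') := by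
    rw [← LinearMap.range_eq_top, eq_top_iff, ← hspan, Submodule.span_le]
    rintro _ ⟨n, rfl⟩
    exact ⟨(1 : R') ⊗ₜ[R] n, by simp [bL]⟩
  have hbij : Function.Bijective (bL.liftBaseChange R') :=
    Module.Invertible.bijective_of_surjective hsurj
  exact IsBaseChange.of_equiv (LinearEquiv.ofBijective _ hbij) (fun n => by simp)

end Semilinear

section IdealSL

variable {R R' : Type u} [CommRing R] [CommRing R'] (ρ : R →+* R')

/-- The restriction of a ring homomorphism to ideals `I → I'` (with `ρ(I) ⊆ I'`), as a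
semilinear map. -/
def idealSL (I : Ideal R) (I' : Ideal R') (h : I.map ρ ≤ I') : I →ₛₗ[ρ] I' where
  toFun a := ⟨ρ a, h (Ideal.mem_map_of_mem _ a.2)⟩
  map_add' a b := Subtype.ext (by simp)
  map_smul' r a := Subtype.ext (by simp)

@[simp] theorem idealSL_apply_coe (I : Ideal R) (I' : Ideal R') (h : I.map ρ ≤ I') (a : I) :
    ((idealSL ρ I I' h a : I') : R') = ρ a := rfl

theorem span_range_idealSL (I : Ideal R) (I' : Ideal R') (h : I.map ρ = I') :
    Submodule.span R' (Set.range (idealSL ρ I I' h.le)) = ⊤ := by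
  rw [eq_top_iff]
  rintro ⟨y, hy⟩ -
  let T : Submodule R' R' := (Submodule.span R' (Set.range (idealSL ρ I I' h.le))).map I'.subtype
  have hT : I' ≤ T := by
    rw [← h, Ideal.map, Ideal.span_le]
    rintro _ ⟨a, ha, rfl⟩
    exact ⟨idealSL ρ I I' h.le ⟨a, ha⟩, Submodule.subset_span ⟨_, rfl⟩, rfl⟩
  obtain ⟨y', hy', hyy'⟩ := hT hy
  have : y' = ⟨y, hy⟩ := Subtype.ext hyy'
  rw [← this]
  exact hy'

/-- The restriction of a ring homomorphism to invertible ideals `I → I · R'` is a semilinear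
base change. -/
theorem isSemilinearBaseChange_idealSL (I : Ideal R) (I' : Ideal R') (h : I.map ρ = I')
    [Module.Invertible R I] [Module.Invertible R' I'] :
    IsSemilinearBaseChange ρ (idealSL ρ I I' h.le) :=
  isSemilinearBaseChange_of_span ρ _ (span_range_idealSL ρ I I' h)

end IdealSL

section IdealGD

variable {A R₀ R₁ R₀₁ : Type u} [CommRing A] [CommRing R₀] [CommRing R₁]
    [CommRing R₀₁] [Algebra A R₀] [Algebra A R₁] [Algebra A R₀₁] [Algebra R₀ R₀₁]
    [Algebra R₁ R₀₁] [IsScalarTower A R₀ R₀₁] [IsScalarTower A R₁ R₀₁]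
    {A' R₀' R₁' R₀₁' : Type u} [CommRing A'] [CommRing R₀'] [CommRing R₁']
    [CommRing R₀₁'] [Algebra A' R₀'] [Algebra A' R₁'] [Algebra A' R₀₁'] [Algebra R₀' R₀₁']
    [Algebra R₁' R₀₁'] [IsScalarTower A' R₀' R₀₁'] [IsScalarTower A' R₁' R₀₁']
    [Module.Flat R₀ R₀₁] [Module.Flat R₁ R₀₁] [Module.Flat R₀' R₀₁'] [Module.Flat R₁' R₀₁']

/-- The extension `I · R₀₁` of an invertible ideal along a flat map is invertible. -/
theorem invertible_map_of_flat {R S : Type u} [CommRing R] [CommRing S] [Algebra R S]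
    [Module.Flat R S] (I : Ideal R) (J : Ideal S) (h : I.map (algebraMap R S) = J)
    [Module.Invertible R I] : Module.Invertible S J :=
  Module.Invertible.congr (H325.isBaseChange_idealRes I J h).equiv

/-- **Base change of ideal gluing data.**  Along a morphism of cospans `(ρ₀, ρ₁, ρ₀₁)`, the
ideal datum of `(I₀, I₁, I₀₁)` base-changes to the ideal datum of `(I₀', I₁', I₀₁')` as soon as
`I₀' = I₀ · R₀'` and `I₁' = I₁ · R₁'`. -/
theorem idealGD_isBC (ρ₀ : R₀ →+* R₀') (ρ₁ : R₁ →+* R₁') (ρ₀₁ : R₀₁ →+* R₀₁')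
    (hρ₀ : ρ₀₁.comp (algebraMap R₀ R₀₁) = (algebraMap R₀' R₀₁').comp ρ₀)
    (hρ₁ : ρ₀₁.comp (algebraMap R₁ R₀₁) = (algebraMap R₁' R₀₁').comp ρ₁)
    (I₀ : Ideal R₀) (I₁ : Ideal R₁) (I₀₁ : Ideal R₀₁)
    (h₀ : I₀.map (algebraMap R₀ R₀₁) = I₀₁) (h₁ : I₁.map (algebraMap R₁ R₀₁) = I₀₁)
    (inv₀ : Module.Invertible R₀ I₀) (inv₁ : Module.Invertible R₁ I₁)
    (I₀' : Ideal R₀') (I₁' : Ideal R₁') (I₀₁' : Ideal R₀₁')
    (h₀' : I₀'.map (algebraMap R₀' R₀₁') = I₀₁') (h₁' : I₁'.map (algebraMap R₁' R₀₁') = I₀₁')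
    (inv₀' : Module.Invertible R₀' I₀') (inv₁' : Module.Invertible R₁' I₁')
    (e₀ : I₀.map ρ₀ = I₀') (e₁ : I₁.map ρ₁ = I₁') :
    GlueDatum.IsBC ρ₀ ρ₁ ρ₀₁ (H325.idealGD (A := A) I₀ I₁ I₀₁ h₀ h₁ inv₀ inv₁)
      (H325.idealGD (A := A') I₀' I₁' I₀₁' h₀' h₁' inv₀' inv₁') := by
  have e₀₁ : I₀₁.map ρ₀₁ = I₀₁' := by
    rw [← h₀, Ideal.map_map, hρ₀, ← Ideal.map_map, e₀, h₀']
  haveI : Module.Invertible R₀₁ I₀₁ := invertible_map_of_flat I₀ I₀₁ h₀
  haveI : Module.Invertible R₀₁' I₀₁' := invertible_map_of_flat I₀' I₀₁' h₀'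
  refine ⟨{ b₀ := idealSL ρ₀ I₀ I₀' e₀.le
            b₁ := idealSL ρ₁ I₁ I₁' e₁.le
            b₀₁ := idealSL ρ₀₁ I₀₁ I₀₁' e₀₁.le
            comm₀ := ?_
            comm₁ := ?_
            isBaseChange₀ := isSemilinearBaseChange_idealSL ρ₀ I₀ I₀' e₀
            isBaseChange₁ := isSemilinearBaseChange_idealSL ρ₁ I₁ I₁' e₁
            isBaseChange₀₁ := isSemilinearBaseChange_idealSL ρ₀₁ I₀₁ I₀₁' e₀₁ }⟩
  · intro s
    apply Subtype.ext
    exact RingHom.congr_fun hρ₀ s.1
  · intro s
    apply Subtype.ext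
    exact RingHom.congr_fun hρ₁ s.1

end IdealGD

end Fermat.Agent.S25.H851
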