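import Mathlib
import Fermat.Agent.S25.DefsAlg
import Fermat.Agent.S25.H325.GDCIdeal
import Fermat.Agent.S25.H431.Diagonal
import Fermat.Agent.S25.H11.HilbDiv
import Fermat.Agent.S25.H567.TensorDomain
import Fermat.Agent.S25.H250.AdapterProj
import Fermat.Agent.S25.H251.ChartCover
import Fermat.Agent.S25.H851.Contraction
import Fermat.Agent.S25.H851.IdealBC

/-!
# S25 / ALGCHARTS C1 in frozen language (helper851): the gluing datum of a Hilbert point

For a curve chart `hC : IsCurveChart k B₀ B₁ B₀₁ x y e` over an algebraically closed field and an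
ideal `I ⊆ A ⊗ B₀` with `(A ⊗ B₀) ⧸ I` finite projective over `A` (a relative effective divisor
`D ⊆ U₀ × Spec A`, finite flat over `A`):

* `hilb_invertible` : `I` is an invertible `A ⊗ B₀`-module (H2 + H3);
* `hilb_contr_invertible` : the contraction `contr I ⊆ A ⊗ B₁` is an invertible module (H6);
* `hilbGD hC I : CurveGD k B₀ B₁ B₀₁ A` : the gluing datum `O(-D) = (I, contr I, I · R₀₁)`;
* `hilbGD_rigidifiable` : it is rigidifiable along `e`;
* `hilbGD_isBC` : for `φ : A →ₐ[k] A'` it base-changes to the datum of `I · (A' ⊗ B₀)`.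
-/

set_option autoImplicit false
set_option linter.style.haveILetI false
set_option linter.unusedSectionVars false

universe u

open TensorProduct

namespace Fermat.Agent.S25.H851

open Fermat.Agent.S25

section Chart

variable {k : Type u} [Field k] {B₀ B₁ B₀₁ : Type u} [CommRing B₀] [CommRing B₁] [CommRing B₀₁]
  [Algebra k B₀] [Algebra k B₁] [Algebra k B₀₁] [Algebra B₀ B₀₁] [Algebra B₁ B₀₁]
  [IsScalarTower k B₀ B₀₁] [IsScalarTower k B₁ B₀₁] {x : B₀} {y : B₁} {e : B₁ →ₐ[k] k}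

/-- The diagonal ideal of the first chart is invertible. -/
theorem diag_invertible₀ [IsAlgClosed k] (hC : IsCurveChart k B₀ B₁ B₀₁ x y e) :
    Module.Invertible (B₀ ⊗[k] B₀) (KaehlerDifferential.ideal k B₀) := by
  haveI := hC.isDomain₀
  haveI : IsDomain (B₀ ⊗[k] B₀) := H567.isDomain_tensorProduct_of_isAlgClosed k B₀ B₀
  haveI := hC.omega₀
  haveI := hC.smooth₀
  haveI : Algebra.FiniteType k B₀ := inferInstance
  exact H431.diagonal_invertible k B₀

variable (A : Type u) [CommRing A] [Algebra k A]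

/-- **H3 in chart form.** -/
theorem hilb_invertible [IsAlgClosed k] (hC : IsCurveChart k B₀ B₁ B₀₁ x y e)
    (I : Ideal (A ⊗[k] B₀)) [Module.Finite A ((A ⊗[k] B₀) ⧸ I)]
    [Module.Projective A ((A ⊗[k] B₀) ⧸ I)] : Module.Invertible (A ⊗[k] B₀) I := by
  haveI := diag_invertible₀ hC
  exact H11.hilb_ideal_invertible k B₀ A I

theorem away_tensor₀ (hC : IsCurveChart k B₀ B₁ B₀₁ x y e) :
    IsLocalization.Away ((1 : A) ⊗ₜ[k] x : A ⊗[k] B₀) (A ⊗[k] B₀₁) := by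
  haveI := hC.away₀
  exact H250.isLocalization_away_tensor (A := A) B₀ B₀₁ x

theorem away_tensor₁ (hC : IsCurveChart k B₀ B₁ B₀₁ x y e) :
    IsLocalization.Away ((1 : A) ⊗ₜ[k] y : A ⊗[k] B₁) (A ⊗[k] B₀₁) := by
  haveI := hC.away₁
  exact H250.isLocalization_away_tensor (A := A) B₁ B₀₁ y

theorem tensor_xy (hC : IsCurveChart k B₀ B₁ B₀₁ x y e) :
    algebraMap (A ⊗[k] B₀) (A ⊗[k] B₀₁) ((1 : A) ⊗ₜ[k] x) *
      algebraMap (A ⊗[k] B₁) (A ⊗[k] B₀₁) ((1 : A) ⊗ₜ[k] y) = 1 := by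
  rw [H250.algebraMap_tensor_tmul, H250.algebraMap_tensor_tmul,
    Algebra.TensorProduct.tmul_mul_tmul, hC.mul_eq_one, mul_one]
  rfl

theorem flat_tensor₀ (hC : IsCurveChart k B₀ B₁ B₀₁ x y e) :
    Module.Flat (A ⊗[k] B₀) (A ⊗[k] B₀₁) := by
  haveI := away_tensor₀ A hC
  exact IsLocalization.flat (A ⊗[k] B₀₁) (Submonoid.powers ((1 : A) ⊗ₜ[k] x : A ⊗[k] B₀))

theorem flat_tensor₁ (hC : IsCurveChart k B₀ B₁ B₀₁ x y e) :
    Module.Flat (A ⊗[k] B₁) (A ⊗[k] B₀₁) := by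
  haveI := away_tensor₁ A hC
  exact IsLocalization.flat (A ⊗[k] B₀₁) (Submonoid.powers ((1 : A) ⊗ₜ[k] y : A ⊗[k] B₁))

theorem injective_tensor₁ (hC : IsCurveChart k B₀ B₁ B₀₁ x y e) :
    Function.Injective (algebraMap (A ⊗[k] B₁) (A ⊗[k] B₀₁)) := by
  have h1 : Function.Injective (IsScalarTower.toAlgHom k B₁ B₀₁).toLinearMap :=
    H250.algebraMap_B1_injective hC
  have h2 := Module.Flat.lTensor_preserves_injective_linearMap (M := A)
    (IsScalarTower.toAlgHom k B₁ B₀₁).toLinearMap h1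
  intro a b hab
  apply h2
  have key : ∀ z : A ⊗[k] B₁, (LinearMap.lTensor A (IsScalarTower.toAlgHom k B₁ B₀₁).toLinearMap) z
      = algebraMap (A ⊗[k] B₁) (A ⊗[k] B₀₁) z := by
    intro z
    induction z using TensorProduct.induction_on with
    | zero => simp
    | tmul a b => rw [H250.algebraMap_tensor_tmul]; rfl
    | add z w hz hw => rw [map_add, map_add, hz, hw]
  rw [key, key, hab]

/-- **H6 in chart form.** -/
theorem hilb_contr_invertible [IsAlgClosed k] (hC : IsCurveChart k B₀ B₁ B₀₁ x y e)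
    (I : Ideal (A ⊗[k] B₀)) [Module.Finite A ((A ⊗[k] B₀) ⧸ I)]
    [Module.Projective A ((A ⊗[k] B₀) ⧸ I)] :
    Module.Invertible (A ⊗[k] B₁) (contr (A ⊗[k] B₁) (A ⊗[k] B₀₁) I) := by
  haveI := hilb_invertible A hC I
  haveI := away_tensor₀ A hC
  haveI := away_tensor₁ A hC
  exact contr_invertible (A := A) ((1 : A) ⊗ₜ[k] x) ((1 : A) ⊗ₜ[k] y) (tensor_xy A hC)
    (injective_tensor₁ A hC) I

/-- The gluing datum `O(-D) = (I, contr I, I · R₀₁)` of a Hilbert point `I`. -/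
noncomputable def hilbGD [IsAlgClosed k] (hC : IsCurveChart k B₀ B₁ B₀₁ x y e)
    (I : Ideal (A ⊗[k] B₀)) [Module.Finite A ((A ⊗[k] B₀) ⧸ I)]
    [Module.Projective A ((A ⊗[k] B₀) ⧸ I)] : CurveGD k B₀ B₁ B₀₁ A :=
  haveI := flat_tensor₀ A hC
  haveI := flat_tensor₁ A hC
  haveI := away_tensor₁ A hC
  H325.idealGD I (contr (A ⊗[k] B₁) (A ⊗[k] B₀₁) I)
    (I.map (algebraMap (A ⊗[k] B₀) (A ⊗[k] B₀₁))) rfl
    (map_contr ((1 : A) ⊗ₜ[k] y) I) (hilb_invertible A hC I) (hilb_contr_invertible A hC I)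

theorem epsHom_one_tmul (hC : IsCurveChart k B₀ B₁ B₀₁ x y e) :
    epsHom e A ((1 : A) ⊗ₜ[k] y) = 0 := by
  simp [epsHom, hC.e_y]

/-- The contraction of a Hilbert point contains an element which is `1` at the marked point. -/
theorem exists_mem_contr_epsHom_eq_one (hC : IsCurveChart k B₀ B₁ B₀₁ x y e)
    (I : Ideal (A ⊗[k] B₀)) [Module.Finite A ((A ⊗[k] B₀) ⧸ I)] :
    ∃ u ∈ contr (A ⊗[k] B₁) (A ⊗[k] B₀₁) I, epsHom e A u = 1 := by
  obtain ⟨u, hu, r, hr⟩ := exists_mem_contr_isCoprime (A := A) ((1 : A) ⊗ₜ[k] x)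
    ((1 : A) ⊗ₜ[k] y) (tensor_xy A hC) I
  refine ⟨u, hu, ?_⟩
  rw [hr, map_add, map_mul, epsHom_one_tmul A hC, mul_zero, add_zero, map_one]

/-- The restriction of `epsHom` to an ideal, as a semilinear map. -/
def epsSL (e : B₁ →ₐ[k] k) (J : Ideal (A ⊗[k] B₁)) : J →ₛₗ[(epsHom e A).toRingHom] A where
  toFun c := epsHom e A c.1
  map_add' a b := by simp
  map_smul' r a := by simp

/-- **Rigidification.** The datum of a Hilbert point is rigidifiable along `e`. -/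
theorem hilbGD_rigidifiable [IsAlgClosed k] (hC : IsCurveChart k B₀ B₁ B₀₁ x y e)
    (I : Ideal (A ⊗[k] B₀)) [Module.Finite A ((A ⊗[k] B₀) ⧸ I)]
    [Module.Projective A ((A ⊗[k] B₀) ⧸ I)] : (hilbGD A hC I).Rigidifiable e := by
  haveI := hilb_contr_invertible A hC I
  refine ⟨epsSL A e (contr (A ⊗[k] B₁) (A ⊗[k] B₀₁) I), ?_⟩
  refine isSemilinearBaseChange_of_span (N := contr (A ⊗[k] B₁) (A ⊗[k] B₀₁) I)
    (epsHom e A).toRingHom _ ?_
  obtain ⟨u, hu, hu1⟩ := exists_mem_contr_epsHom_eq_one A hC I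
  rw [eq_top_iff]
  intro a _
  have h1 : (1 : A) ∈ Submodule.span A
      (Set.range (epsSL A e (contr (A ⊗[k] B₁) (A ⊗[k] B₀₁) I))) :=
    Submodule.subset_span ⟨⟨u, hu⟩, hu1⟩
  have := Submodule.smul_mem _ a h1
  simpa using this

end Chart

section BaseChange

variable {k : Type u} [Field k] {B₀ B₁ B₀₁ : Type u} [CommRing B₀] [CommRing B₁] [CommRing B₀₁]
  [Algebra k B₀] [Algebra k B₁] [Algebra k B₀₁] [Algebra B₀ B₀₁] [Algebra B₁ B₀₁]
  [IsScalarTower k B₀ B₀₁] [IsScalarTower k B₁ B₀₁] {x : B₀} {y : B₁} {e : B₁ →ₐ[k] k}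
  {A A' : Type u} [CommRing A] [Algebra k A] [CommRing A'] [Algebra k A']

theorem tensorMapLeft_tmul (φ : A →ₐ[k] A') (B : Type u) [CommRing B] [Algebra k B] (a : A)
    (b : B) : tensorMapLeft k φ B (a ⊗ₜ[k] b) = φ a ⊗ₜ[k] b := by
  simp [tensorMapLeft]

/-- `tensorMapLeft` is a morphism of cospans. -/
theorem tensorMapLeft_comp_algebraMap (φ : A →ₐ[k] A') (B B' : Type u) [CommRing B]
    [CommRing B'] [Algebra k B] [Algebra k B'] [Algebra B B'] [IsScalarTower k B B'] :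
    (tensorMapLeft k φ B').comp (algebraMap (A ⊗[k] B) (A ⊗[k] B')) =
      (algebraMap (A' ⊗[k] B) (A' ⊗[k] B')).comp (tensorMapLeft k φ B) := by
  apply RingHom.ext
  intro z
  induction z using TensorProduct.induction_on with
  | zero => simp
  | tmul a b =>
    simp only [RingHom.comp_apply, H250.algebraMap_tensor_tmul, tensorMapLeft_tmul]
  | add z w hz hw => rw [map_add, map_add, hz, hw]

/-- **Contraction commutes with base change** (chart form). -/
theorem contr_tensorMapLeft (hC : IsCurveChart k B₀ B₁ B₀₁ x y e) (φ : A →ₐ[k] A')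
    (I : Ideal (A ⊗[k] B₀)) [Module.Finite A ((A ⊗[k] B₀) ⧸ I)] :
    (contr (A ⊗[k] B₁) (A ⊗[k] B₀₁) I).map (tensorMapLeft k φ B₁) =
      contr (A' ⊗[k] B₁) (A' ⊗[k] B₀₁) (I.map (tensorMapLeft k φ B₀)) := by
  haveI := away_tensor₁ A hC
  obtain ⟨u, hu, r, hr⟩ := exists_mem_contr_isCoprime (A := A) ((1 : A) ⊗ₜ[k] x)
    ((1 : A) ⊗ₜ[k] y) (tensor_xy A hC) I
  have hy : tensorMapLeft k φ B₁ ((1 : A) ⊗ₜ[k] y) = (1 : A') ⊗ₜ[k] y := by
    rw [tensorMapLeft_tmul, map_one]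
  haveI : IsLocalization.Away (tensorMapLeft k φ B₁ ((1 : A) ⊗ₜ[k] y)) (A' ⊗[k] B₀₁) := by
    rw [hy]; exact away_tensor₁ A' hC
  refine map_contr_baseChange ((1 : A) ⊗ₜ[k] y) (tensorMapLeft k φ B₀) (tensorMapLeft k φ B₁)
    (tensorMapLeft k φ B₀₁) (tensorMapLeft_comp_algebraMap φ B₀ B₀₁)
    (tensorMapLeft_comp_algebraMap φ B₁ B₀₁) I hu ⟨1, -r, ?_⟩
  rw [hr]; ring

/-- Base change preserves finiteness of the quotient. -/
theorem finite_quot_map (φ : A →ₐ[k] A') (B : Type u) [CommRing B] [Algebra k B]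
    (I : Ideal (A ⊗[k] B)) [Module.Finite A ((A ⊗[k] B) ⧸ I)] :
    Module.Finite A' ((A' ⊗[k] B) ⧸ I.map (tensorMapLeft k φ B)) := by
  let _ : Algebra A A' := φ.toRingHom.toAlgebra
  have : IsScalarTower k A A' := IsScalarTower.of_algebraMap_eq' φ.comp_algebraMap.symm
  have hφ : IsScalarTower.toAlgHom k A A' = φ := by ext; rfl
  have h := H251.finite_quot_baseIdeal (k := k) (B := B) (A := A) (A' := A') (I := I)
  rw [hφ] at h
  exact h

/-- Base change preserves projectivity of the quotient. -/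
theorem projective_quot_map (φ : A →ₐ[k] A') (B : Type u) [CommRing B] [Algebra k B]
    (I : Ideal (A ⊗[k] B)) [Module.Projective A ((A ⊗[k] B) ⧸ I)] :
    Module.Projective A' ((A' ⊗[k] B) ⧸ I.map (tensorMapLeft k φ B)) := by
  let _ : Algebra A A' := φ.toRingHom.toAlgebra
  have : IsScalarTower k A A' := IsScalarTower.of_algebraMap_eq' φ.comp_algebraMap.symm
  have hφ : IsScalarTower.toAlgHom k A A' = φ := by ext; rfl
  have h := H251.projective_quot_baseIdeal (k := k) (B := B) (A := A) (A' := A') (I := I)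
  rw [hφ] at h
  exact h

/-- **Base change.** The datum of a Hilbert point `I` base-changes along `φ : A → A'` to the
datum of `I' = I · (A' ⊗ B₀)`. -/
theorem hilbGD_isBC [IsAlgClosed k] (hC : IsCurveChart k B₀ B₁ B₀₁ x y e) (φ : A →ₐ[k] A')
    (I : Ideal (A ⊗[k] B₀)) [Module.Finite A ((A ⊗[k] B₀) ⧸ I)]
    [Module.Projective A ((A ⊗[k] B₀) ⧸ I)]
    (I' : Ideal (A' ⊗[k] B₀)) [Module.Finite A' ((A' ⊗[k] B₀) ⧸ I')]
    [Module.Projective A' ((A' ⊗[k] B₀) ⧸ I')]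
    (hI' : I.map (tensorMapLeft k φ B₀) = I') :
    CurveGD.IsBC φ (hilbGD A hC I) (hilbGD A' hC I') := by
  haveI := flat_tensor₀ A hC
  haveI := flat_tensor₁ A hC
  haveI := flat_tensor₀ A' hC
  haveI := flat_tensor₁ A' hC
  haveI := away_tensor₁ A hC
  haveI := away_tensor₁ A' hC
  subst hI'
  exact idealGD_isBC (tensorMapLeft k φ B₀) (tensorMapLeft k φ B₁) (tensorMapLeft k φ B₀₁)
    (tensorMapLeft_comp_algebraMap φ B₀ B₀₁) (tensorMapLeft_comp_algebraMap φ B₁ B₀₁)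
    I _ _ rfl (map_contr ((1 : A) ⊗ₜ[k] y) I) (hilb_invertible A hC I)
    (hilb_contr_invertible A hC I)
    (I.map (tensorMapLeft k φ B₀)) _ _ rfl
    (map_contr ((1 : A') ⊗ₜ[k] y) (I.map (tensorMapLeft k φ B₀)))
    (hilb_invertible A' hC _) (hilb_contr_invertible A' hC _) rfl
    (contr_tensorMapLeft hC φ I)

/-- **Base change, existence form.** -/
theorem hilbGD_isBC_map [IsAlgClosed k] (hC : IsCurveChart k B₀ B₁ B₀₁ x y e) (φ : A →ₐ[k] A')
    (I : Ideal (A ⊗[k] B₀)) [Module.Finite A ((A ⊗[k] B₀) ⧸ I)]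
    [Module.Projective A ((A ⊗[k] B₀) ⧸ I)] :
    haveI := finite_quot_map φ B₀ I
    haveI := projective_quot_map φ B₀ I
    CurveGD.IsBC φ (hilbGD A hC I) (hilbGD A' hC (I.map (tensorMapLeft k φ B₀))) := by
  haveI := finite_quot_map φ B₀ I
  haveI := projective_quot_map φ B₀ I
  exact hilbGD_isBC hC φ I _ rfl

end BaseChange

end Fermat.Agent.S25.H851
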