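import Mathlib

/-!
# S25 / ALGCHARTS, leaf PT-ISO, abstract core (helper851)

Commutative algebra used to compare two invertible modules carrying sections with the same
divisor.

* `dual_smul_comm` : on an invertible module, `l s • n = l n • s`.
* `ideal_le_of_smul_top_le` : cancellation `I N ≤ I' N → I ≤ I'` for an invertible module `N`.
* `secIdeal s` : the ideal `{l s}` of a section `s`; `secIdeal_smul_top : secIdeal s • ⊤ = R s`.
* `map_smul_top_eq_span` : base change of `I N = R s`.
* `exists_coprime_smul_mem` : Nakayama, `N = R s + y N → ∃ u, (u, y) = 1 ∧ u N ⊆ R s`.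
* `exists_equiv_of_span_eq` : two modules with sections `s`, `s'` such that `J N = R s`,
  `J N' = R s'` (and a regular element in `J`) are isomorphic by an isomorphism `s ↦ s'`.
-/

set_option autoImplicit false

open TensorProduct

namespace Fermat.Agent.S25.H851

section Core

variable {R : Type*} [CommRing R] {N : Type*} [AddCommGroup N] [Module R N]

/-- On an invertible module, `l s • n = l n • s`. -/
theorem dual_smul_comm [Module.Invertible R N] (l : Module.Dual R N) (s n : N) :
    l s • n = l n • s := by
  have h := congrArg (TensorProduct.lift ((LinearMap.lsmul R N).comp l))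
    (Module.Invertible.tmul_comm (R := R) (m₁ := s) (m₂ := n))
  simpa using h

/-- A functional maps `I N` into `I`. -/
theorem dual_mem_of_mem_smul_top {I : Ideal R} (l : Module.Dual R N) {m : N}
    (hm : m ∈ I • (⊤ : Submodule R N)) : l m ∈ I := by
  refine Submodule.smul_induction_on hm ?_ ?_
  · intro a ha n _
    rw [map_smul, smul_eq_mul]
    exact I.mul_mem_right _ ha
  · intro m₁ m₂ h₁ h₂
    rw [map_add]
    exact I.add_mem h₁ h₂

/-- **Cancellation.** For an invertible module `N`, `I N ≤ I' N` implies `I ≤ I'`. -/
theorem ideal_le_of_smul_top_le [Module.Invertible R N] {I I' : Ideal R}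
    (h : I • (⊤ : Submodule R N) ≤ I' • ⊤) : I ≤ I' := by
  intro a ha
  obtain ⟨z, hz⟩ := (Module.Invertible.bijective (R := R) (M := N)).2 1
  have key : ∀ z : Module.Dual R N ⊗[R] N, a * contractLeft R N z ∈ I' := by
    intro z
    induction z using TensorProduct.induction_on with
    | zero => simp
    | tmul l n =>
      rw [contractLeft_apply]
      have h1 : a • n ∈ I' • (⊤ : Submodule R N) := h (Submodule.smul_mem_smul ha trivial)
      have := dual_mem_of_mem_smul_top l h1
      rwa [map_smul, smul_eq_mul] at this
    | add z w hz hw =>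
      rw [map_add, mul_add]
      exact I'.add_mem hz hw
  have := key z
  rwa [hz, mul_one] at this

theorem ideal_eq_of_smul_top_eq [Module.Invertible R N] {I I' : Ideal R}
    (h : I • (⊤ : Submodule R N) = I' • ⊤) : I = I' :=
  le_antisymm (ideal_le_of_smul_top_le h.le) (ideal_le_of_smul_top_le h.ge)

/-- The ideal of values `l s` of the functionals on a section `s`. -/
def secIdeal (s : N) : Ideal R :=
  LinearMap.range (LinearMap.applyₗ (R := R) s : Module.Dual R N →ₗ[R] R)

theorem mem_secIdeal {s : N} {a : R} : a ∈ secIdeal (R := R) s ↔ ∃ l : Module.Dual R N, l s = a :=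
  Iff.rfl

/-- For an invertible module, `secIdeal s • N = R s`. -/
theorem secIdeal_smul_top [Module.Invertible R N] (s : N) :
    secIdeal (R := R) s • (⊤ : Submodule R N) = Submodule.span R {s} := by
  apply le_antisymm
  · rw [Submodule.smul_le]
    rintro a ⟨l, rfl⟩ n -
    change l s • n ∈ _
    rw [dual_smul_comm]
    exact Submodule.smul_mem _ _ (Submodule.mem_span_singleton_self s)
  · rw [Submodule.span_singleton_le_iff_mem]
    obtain ⟨z, hz⟩ := (Module.Invertible.bijective (R := R) (M := N)).2 1
    have key : ∀ z : Module.Dual R N ⊗[R] N,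
        contractLeft R N z • s ∈ secIdeal (R := R) s • (⊤ : Submodule R N) := by
      intro z
      induction z using TensorProduct.induction_on with
      | zero => simp
      | tmul l n =>
        rw [contractLeft_apply, ← dual_smul_comm]
        exact Submodule.smul_mem_smul ⟨l, rfl⟩ trivial
      | add z w hz hw =>
        rw [map_add, add_smul]
        exact Submodule.add_mem _ hz hw
    have := key z
    rwa [hz, one_smul] at this

/-- A section of a faithful module whose multiples are `J N`, with `J` containing a
nonzerodivisor, is torsion-free. -/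
theorem smul_eq_zero_of_span_eq [FaithfulSMul R N] {J : Ideal R} {t : R} (ht : t ∈ J)
    (htr : t ∈ nonZeroDivisors R) {s : N} (hs : Submodule.span R {s} = J • (⊤ : Submodule R N))
    {r : R} (hr : r • s = 0) : r = 0 := by
  have h1 : ∀ m ∈ Submodule.span R {s}, r • m = 0 := by
    intro m hm
    obtain ⟨c, rfl⟩ := Submodule.mem_span_singleton.1 hm
    rw [smul_comm, hr, smul_zero]
  have h2 : ∀ n : N, (r * t) • n = 0 := by
    intro n
    rw [mul_smul]
    apply h1
    rw [hs]
    exact Submodule.smul_mem_smul ht trivial
  have h3 : r * t = 0 := by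
    apply FaithfulSMul.eq_of_smul_eq_smul (α := N)
    intro n
    rw [h2, zero_smul]
  exact (mem_nonZeroDivisors_iff.1 htr).2 _ h3

end Core

section Nakayama

variable {R : Type*} [CommRing R] {N : Type*} [AddCommGroup N] [Module R N]

/-- **Nakayama.** If `N = R s + y N` for a finite module `N`, there is `u` coprime to `y` with
`u N ⊆ R s`. -/
theorem exists_coprime_smul_mem [Module.Finite R N] (y : R) (s : N)
    (hgen : ∀ c : N, ∃ r : R, c - r • s ∈ (Ideal.span {y} • ⊤ : Submodule R N)) :
    ∃ u : R, IsCoprime u y ∧ ∀ n : N, u • n ∈ Submodule.span R {s} := by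
  set P : Submodule R N := Submodule.span R {s} with hP
  have hle : (⊤ : Submodule R (N ⧸ P)) ≤ Ideal.span {y} • ⊤ := by
    rintro q -
    obtain ⟨c, rfl⟩ := Submodule.Quotient.mk_surjective P q
    obtain ⟨r, hr⟩ := hgen c
    have h1 : Submodule.Quotient.mk (p := P) c = Submodule.Quotient.mk (p := P) (c - r • s) := by
      rw [Submodule.Quotient.eq]
      have : c - (c - r • s) = r • s := by abel
      rw [this]
      exact Submodule.smul_mem _ _ (Submodule.mem_span_singleton_self s)
    rw [h1]
    have h2 : P.mkQ (c - r • s) ∈ (Ideal.span {y} • (⊤ : Submodule R N)).map P.mkQ :=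
      Submodule.mem_map_of_mem hr
    rw [Submodule.map_smul''] at h2
    exact Submodule.smul_mono le_rfl le_top h2
  obtain ⟨u, hu1, hu2⟩ := Submodule.exists_sub_one_mem_and_smul_eq_zero_of_fg_of_le_smul
    (Ideal.span {y}) (⊤ : Submodule R (N ⧸ P)) Module.Finite.fg_top hle
  refine ⟨u, ?_, fun n => ?_⟩
  · obtain ⟨c, hc⟩ := Ideal.mem_span_singleton'.1 hu1
    exact ⟨1, -c, by rw [neg_mul, hc]; ring⟩
  · have := hu2 (Submodule.Quotient.mk n) trivial
    rwa [← Submodule.Quotient.mk_smul, Submodule.Quotient.mk_eq_zero] at this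

end Nakayama

section BaseChange

variable {R S : Type*} [CommRing R] [CommRing S] [Algebra R S]
  {N N' : Type*} [AddCommGroup N] [Module R N] [AddCommGroup N'] [Module R N'] [Module S N']
  [IsScalarTower R S N']

/-- Base change of `I N = R s`. -/
theorem map_smul_top_eq_span {f : N →ₗ[R] N'} (hf : IsBaseChange S f) (I : Ideal R) (s : N)
    (hs : Submodule.span R {s} = I • (⊤ : Submodule R N)) :
    (I.map (algebraMap R S)) • (⊤ : Submodule S N') = Submodule.span S {f s} := by
  apply le_antisymm
  · rw [Submodule.smul_le]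
    intro a' ha' n' _
    revert a'
    refine hf.inductionOn n' (fun n' => ∀ a' ∈ I.map (algebraMap R S),
      a' • n' ∈ Submodule.span S {f s}) ?_ ?_ ?_ ?_
    · intro a' _
      rw [smul_zero]
      exact Submodule.zero_mem _
    · intro m a' ha'
      refine Submodule.span_induction (p := fun a' _ => a' • f m ∈ Submodule.span S {f s})
        ?_ ?_ ?_ ?_ ha'
      · rintro _ ⟨a, ha, rfl⟩
        have h1 : a • m ∈ Submodule.span R {s} := by
          rw [hs]
          exact Submodule.smul_mem_smul ha trivial
        obtain ⟨c, hc⟩ := Submodule.mem_span_singleton.1 h1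
        rw [algebraMap_smul, ← map_smul, ← hc, map_smul, ← algebraMap_smul S c (f s)]
        exact Submodule.smul_mem _ _ (Submodule.mem_span_singleton_self _)
      · rw [zero_smul]
        exact Submodule.zero_mem _
      · intro a b _ _ ha hb
        rw [add_smul]
        exact Submodule.add_mem _ ha hb
      · intro b a _ ha
        rw [smul_eq_mul, mul_smul]
        exact Submodule.smul_mem _ _ ha
    · intro b n ih a' ha'
      rw [smul_comm]
      exact Submodule.smul_mem _ _ (ih a' ha')
    · intro n₁ n₂ h₁ h₂ a' ha'
      rw [smul_add]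
      exact Submodule.add_mem _ (h₁ a' ha') (h₂ a' ha')
  · rw [Submodule.span_singleton_le_iff_mem]
    have hmem : s ∈ I • (⊤ : Submodule R N) := by
      rw [← hs]
      exact Submodule.mem_span_singleton_self s
    refine Submodule.smul_induction_on hmem ?_ ?_
    · intro a ha n _
      rw [map_smul, ← algebraMap_smul S a (f n)]
      exact Submodule.smul_mem_smul (Ideal.mem_map_of_mem _ ha) trivial
    · intro m₁ m₂ h₁ h₂
      rw [map_add]
      exact Submodule.add_mem _ h₁ h₂

end BaseChange

section Equiv

variable {R : Type*} [CommRing R] {N : Type*} [AddCommGroup N] [Module R N]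

/-- The coordinate `c n` of `t • n` on a torsion-free generator `s` of `J N ∋ t n`. -/
theorem exists_coord {J : Ideal R} {t : R} (ht : t ∈ J) {s : N}
    (hs : Submodule.span R {s} = J • (⊤ : Submodule R N))
    (htf : ∀ r : R, r • s = 0 → r = 0) :
    ∃ c : N →ₗ[R] R, ∀ n, c n • s = t • n := by
  have hinj : Function.Injective (LinearMap.toSpanSingleton R N s) := by
    rw [injective_iff_map_eq_zero]
    intro r hr
    exact htf r (by simpa using hr)
  have hmem : ∀ n : N, t • n ∈ LinearMap.range (LinearMap.toSpanSingleton R N s) := by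
    intro n
    have : t • n ∈ Submodule.span R {s} := by
      rw [hs]
      exact Submodule.smul_mem_smul ht trivial
    obtain ⟨c, hc⟩ := Submodule.mem_span_singleton.1 this
    exact ⟨c, by simpa using hc⟩
  refine ⟨(LinearEquiv.ofInjective _ hinj).symm.toLinearMap ∘ₗ
    LinearMap.codRestrict _ (LinearMap.lsmul R N t) hmem, fun n => ?_⟩
  have h1 := (LinearEquiv.ofInjective _ hinj).apply_symm_apply
    (LinearMap.codRestrict _ (LinearMap.lsmul R N t) hmem n)
  have h2 := congrArg Subtype.val h1
  rw [LinearEquiv.ofInjective_apply] at h2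
  exact h2

/-- The range of the coordinate map is the ideal `(t : J)`. -/
theorem mem_range_coord_iff {J : Ideal R} {t : R} {s : N}
    (hs : Submodule.span R {s} = J • (⊤ : Submodule R N))
    (htf : ∀ r : R, r • s = 0 → r = 0) (d : N →ₗ[R] R) (hd : ∀ n, d n • s = t • n) (a : R) :
    a ∈ LinearMap.range d ↔ ∀ j ∈ J, ∃ b, a * j = t * b := by
  constructor
  · rintro ⟨n, rfl⟩ j hj
    have h1 : j • n ∈ Submodule.span R {s} := by
      rw [hs]
      exact Submodule.smul_mem_smul hj trivial
    obtain ⟨b, hb⟩ := Submodule.mem_span_singleton.1 h1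
    refine ⟨b, ?_⟩
    have h2 : (d n * j - t * b) • s = 0 := by
      rw [sub_smul, mul_comm (d n) j, mul_smul, mul_smul, hb, hd, smul_comm, sub_self]
    exact sub_eq_zero.1 (htf _ h2)
  · intro ha
    have h1 : ∀ m ∈ J • (⊤ : Submodule R N), ∃ n, a • m = t • n := by
      intro m hm
      refine Submodule.smul_induction_on hm ?_ ?_
      · intro j hj n _
        obtain ⟨b, hb⟩ := ha j hj
        exact ⟨b • n, by rw [← mul_smul, hb, mul_smul]⟩
      · rintro m₁ m₂ ⟨n₁, hn₁⟩ ⟨n₂, hn₂⟩
        exact ⟨n₁ + n₂, by rw [smul_add, smul_add, hn₁, hn₂]⟩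
    obtain ⟨n, hn⟩ := h1 s (by rw [← hs]; exact Submodule.mem_span_singleton_self s)
    refine ⟨n, ?_⟩
    have h2 : (d n - a) • s = 0 := by rw [sub_smul, hd, hn, sub_self]
    exact sub_eq_zero.1 (htf _ h2)

/-- **Comparison of two modules with sections of the same divisor.** -/
theorem exists_equiv_of_span_eq {N' : Type*} [AddCommGroup N'] [Module R N']
    (J : Ideal R) (t : R) (ht : t ∈ J) (s : N) (s' : N')
    (hs : Submodule.span R {s} = J • (⊤ : Submodule R N))
    (hs' : Submodule.span R {s'} = J • (⊤ : Submodule R N'))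
    (hreg : IsSMulRegular N t) (hreg' : IsSMulRegular N' t)
    (htf : ∀ r : R, r • s = 0 → r = 0) (htf' : ∀ r : R, r • s' = 0 → r = 0) :
    ∃ e : N ≃ₗ[R] N', e s = s' := by
  obtain ⟨c, hc⟩ := exists_coord ht hs htf
  obtain ⟨c', hc'⟩ := exists_coord ht hs' htf'
  have hcinj : Function.Injective c := by
    rw [injective_iff_map_eq_zero]
    intro n hn
    have := hc n
    rw [hn, zero_smul] at this
    exact hreg (by simpa using this.symm)
  have hcinj' : Function.Injective c' := by
    rw [injective_iff_map_eq_zero]
    intro n hn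
    have := hc' n
    rw [hn, zero_smul] at this
    exact hreg' (by simpa using this.symm)
  have hrr : LinearMap.range c = LinearMap.range c' := by
    ext a
    rw [mem_range_coord_iff hs htf c hc, mem_range_coord_iff hs' htf' c' hc']
  let E : N ≃ₗ[R] N' := (LinearEquiv.ofInjective c hcinj).trans
    ((LinearEquiv.ofEq _ _ hrr).trans (LinearEquiv.ofInjective c' hcinj').symm)
  have hE : ∀ n, c' (E n) = c n := by
    intro n
    have h1 := (LinearEquiv.ofInjective c' hcinj').apply_symm_apply
      (LinearEquiv.ofEq _ _ hrr (LinearEquiv.ofInjective c hcinj n))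
    have h2 := congrArg Subtype.val h1
    rw [LinearEquiv.ofInjective_apply] at h2
    exact h2
  refine ⟨E, ?_⟩
  apply hcinj'
  rw [hE]
  have h1 : c s = t := sub_eq_zero.1 (htf _ (by rw [sub_smul, hc, sub_self]))
  have h2 : c' s' = t := sub_eq_zero.1 (htf' _ (by rw [sub_smul, hc', sub_self]))
  rw [h1, h2]

end Equiv

end Fermat.Agent.S25.H851
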