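import Fermat.Agent.S25.DefsAlg
import Fermat.Agent.S25.H851.Contraction
import Fermat.Agent.S25.H851.ACIsoCore

/-!
# S25 / ALGCHARTS, leaf PT-ISO, gluing-datum level (helper851)

Two gluing data over a two-chart cospan `R₀ → R₀₁ ← R₁` (`R₀₁ = R₀[1/x₀] = R₁[1/y₁]`,
`x₀ y₁ = 1`) carrying sections `(s₀, s₁)`, `(s₀', s₁')` of the `n`-th twist which generate modulo
`y₁` and have the same divisor `J` on the first chart are isomorphic:
`GlueDatum.isIso_of_sections`.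
-/

set_option autoImplicit false
set_option linter.style.haveILetI false

universe u

open TensorProduct

namespace Fermat.Agent.S25.H851

open Fermat.Agent.S25

section Glue

variable {A R₀ R₁ R₀₁ : Type u} [CommRing A] [CommRing R₀] [CommRing R₁]
    [CommRing R₀₁] [Algebra A R₀] [Algebra A R₁] [Algebra A R₀₁] [Algebra R₀ R₀₁]
    [Algebra R₁ R₀₁] [IsScalarTower A R₀ R₀₁] [IsScalarTower A R₁ R₀₁]

/-- The module over the intersection of a gluing datum is invertible. -/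
theorem glue_invertible₀₁ (G : GlueDatum A R₀ R₁ R₀₁) : Module.Invertible R₀₁ G.N₀₁ :=
  haveI := G.invertible₀
  Module.Invertible.congr G.isBaseChange₀.equiv

/-- The data on the second chart attached to a section generating modulo `y₁`: an ideal `J₁`
with `J₁ N₁ = R₁ s₁`, containing an element coprime to `y₁`, whose extension to `R₀₁` is the
extension of `J`. -/
theorem secIdeal_chart₁ (x₀ : R₀) (y₁ : R₁) [IsLocalization.Away y₁ R₀₁]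
    (hxy : algebraMap R₀ R₀₁ x₀ * algebraMap R₁ R₀₁ y₁ = 1)
    (G : GlueDatum A R₀ R₁ R₀₁) (n : ℕ) (J : Ideal R₀) (s₀ : G.N₀) (s₁ : G.N₁)
    (hs : G.r₀ s₀ = (algebraMap R₀ R₀₁ x₀) ^ n • G.r₁ s₁)
    (hspan : Submodule.span R₀ {s₀} = J • (⊤ : Submodule R₀ G.N₀))
    (hgen : ∀ c : G.N₁, ∃ r : R₁, c - r • s₁ ∈ (Ideal.span {y₁} • ⊤ : Submodule R₁ G.N₁)) :
    (∃ u ∈ secIdeal (R := R₁) s₁, IsCoprime u y₁) ∧
      (secIdeal (R := R₁) s₁).map (algebraMap R₁ R₀₁) = J.map (algebraMap R₀ R₀₁) := by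
  haveI := G.invertible₀
  haveI := G.invertible₁
  haveI := glue_invertible₀₁ G
  have hJ₁ := secIdeal_smul_top (R := R₁) s₁
  constructor
  · obtain ⟨u, hu, hun⟩ := exists_coprime_smul_mem y₁ s₁ hgen
    refine ⟨u, ?_, hu⟩
    have hle : (Ideal.span {u}) • (⊤ : Submodule R₁ G.N₁) ≤
        secIdeal (R := R₁) s₁ • (⊤ : Submodule R₁ G.N₁) := by
      rw [hJ₁, Submodule.smul_le]
      intro a ha m _
      obtain ⟨c, rfl⟩ := Ideal.mem_span_singleton'.1 ha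
      rw [mul_smul]
      exact Submodule.smul_mem _ _ (hun m)
    exact ideal_le_of_smul_top_le hle (Ideal.mem_span_singleton_self u)
  · apply ideal_eq_of_smul_top_eq (N := G.N₀₁)
    rw [map_smul_top_eq_span G.isBaseChange₁ _ s₁ hJ₁.symm,
      map_smul_top_eq_span G.isBaseChange₀ J s₀ hspan, hs]
    have hunit : IsUnit ((algebraMap R₀ R₀₁ x₀) ^ n) :=
      (IsUnit.of_mul_eq_one _ hxy).pow n
    exact (Submodule.span_singleton_smul_eq hunit _).symm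

/-- A nonzerodivisor of `R₀` in `J` produces a nonzerodivisor of `R₁` in any ideal `J₁` with
the same extension to `R₀₁`. -/
theorem exists_nonZeroDivisor_chart₁ (x₀ : R₀) (y₁ : R₁) [IsLocalization.Away x₀ R₀₁]
    [IsLocalization.Away y₁ R₀₁] (hinj : Function.Injective (algebraMap R₁ R₀₁))
    (J : Ideal R₀) (J₁ : Ideal R₁)
    (hJ : J₁.map (algebraMap R₁ R₀₁) = J.map (algebraMap R₀ R₀₁))
    {t : R₀} (ht : t ∈ J) (htr : t ∈ nonZeroDivisors R₀) :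
    ∃ t₁ ∈ J₁, t₁ ∈ nonZeroDivisors R₁ ∧ algebraMap R₁ R₀₁ t₁ ∈ nonZeroDivisors R₀₁ := by
  have h1 : algebraMap R₀ R₀₁ t ∈ J₁.map (algebraMap R₁ R₀₁) := by
    rw [hJ]
    exact Ideal.mem_map_of_mem _ ht
  rw [IsLocalization.mem_map_algebraMap_iff (Submonoid.powers y₁)] at h1
  obtain ⟨⟨⟨b, hb⟩, ⟨m, hm⟩⟩, hbm⟩ := h1
  simp only at hbm
  have h2 : algebraMap R₀ R₀₁ t ∈ nonZeroDivisors R₀₁ :=
    IsLocalization.map_nonZeroDivisors_le (Submonoid.powers x₀) R₀₁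
      (Submonoid.mem_map_of_mem _ htr)
  have h3 : algebraMap R₁ R₀₁ m ∈ nonZeroDivisors R₀₁ :=
    (IsLocalization.map_units R₀₁ (⟨m, hm⟩ : Submonoid.powers y₁)).mem_nonZeroDivisors
  have h4 : algebraMap R₁ R₀₁ b ∈ nonZeroDivisors R₀₁ := by
    rw [← hbm]
    exact mul_mem h2 h3
  refine ⟨b, hb, ?_, h4⟩
  rw [mem_nonZeroDivisors_iff_right]
  intro c hc
  apply hinj
  rw [map_zero]
  apply (mem_nonZeroDivisors_iff_right.1 h4)
  rw [← map_mul, hc, map_zero]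

/-- **PT-ISO, gluing-datum form.** Two gluing data with sections of the `n`-th twist which
generate modulo `y₁` and have the same divisor `J` on the first chart are isomorphic. -/
theorem isIso_of_sections (x₀ : R₀) (y₁ : R₁) [IsLocalization.Away x₀ R₀₁]
    [IsLocalization.Away y₁ R₀₁]
    (hxy : algebraMap R₀ R₀₁ x₀ * algebraMap R₁ R₀₁ y₁ = 1)
    (hinj : Function.Injective (algebraMap R₁ R₀₁))
    (G G' : GlueDatum A R₀ R₁ R₀₁) (n : ℕ) (J : Ideal R₀) (t : R₀) (ht : t ∈ J)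
    (htr : t ∈ nonZeroDivisors R₀)
    (s₀ : G.N₀) (s₁ : G.N₁) (s₀' : G'.N₀) (s₁' : G'.N₁)
    (hs : G.r₀ s₀ = (algebraMap R₀ R₀₁ x₀) ^ n • G.r₁ s₁)
    (hs' : G'.r₀ s₀' = (algebraMap R₀ R₀₁ x₀) ^ n • G'.r₁ s₁')
    (hspan : Submodule.span R₀ {s₀} = J • (⊤ : Submodule R₀ G.N₀))
    (hspan' : Submodule.span R₀ {s₀'} = J • (⊤ : Submodule R₀ G'.N₀))
    (hgen : ∀ c : G.N₁, ∃ r : R₁, c - r • s₁ ∈ (Ideal.span {y₁} • ⊤ : Submodule R₁ G.N₁))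
    (hgen' : ∀ c : G'.N₁, ∃ r : R₁, c - r • s₁' ∈ (Ideal.span {y₁} • ⊤ : Submodule R₁ G'.N₁)) :
    G.IsIso G' := by
  haveI := G.invertible₀
  haveI := G.invertible₁
  haveI := G'.invertible₀
  haveI := G'.invertible₁
  haveI := glue_invertible₀₁ G
  haveI := glue_invertible₀₁ G'
  -- first chart
  have htf₀ : ∀ r : R₀, r • s₀ = 0 → r = 0 := fun r hr =>
    smul_eq_zero_of_span_eq ht htr hspan hr
  have htf₀' : ∀ r : R₀, r • s₀' = 0 → r = 0 := fun r hr =>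
    smul_eq_zero_of_span_eq ht htr hspan' hr
  have hreg₀ : IsSMulRegular G.N₀ t := Module.Flat.isSMulRegular_of_nonZeroDivisors htr
  have hreg₀' : IsSMulRegular G'.N₀ t := Module.Flat.isSMulRegular_of_nonZeroDivisors htr
  obtain ⟨e₀, he₀⟩ := exists_equiv_of_span_eq J t ht s₀ s₀' hspan hspan' hreg₀ hreg₀' htf₀ htf₀'
  -- the intersection
  let f01 : G.N₀₁ →ₗ[R₀₁] G'.N₀₁ := G.isBaseChange₀.lift (G'.r₀ ∘ₗ e₀.toLinearMap)
  let g01 : G'.N₀₁ →ₗ[R₀₁] G.N₀₁ := G'.isBaseChange₀.lift (G.r₀ ∘ₗ e₀.symm.toLinearMap)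
  have hf01 : ∀ m, f01 (G.r₀ m) = G'.r₀ (e₀ m) := fun m => G.isBaseChange₀.lift_eq _ m
  have hg01 : ∀ m, g01 (G'.r₀ m) = G.r₀ (e₀.symm m) := fun m => G'.isBaseChange₀.lift_eq _ m
  have hfg : f01 ∘ₗ g01 = LinearMap.id := by
    apply G'.isBaseChange₀.algHom_ext
    intro m
    simp only [LinearMap.comp_apply, LinearMap.id_apply]
    rw [hg01, hf01, LinearEquiv.apply_symm_apply]
  have hgf : g01 ∘ₗ f01 = LinearMap.id := by
    apply G.isBaseChange₀.algHom_ext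
    intro m
    simp only [LinearMap.comp_apply, LinearMap.id_apply]
    rw [hf01, hg01, LinearEquiv.symm_apply_apply]
  let e₀₁ : G.N₀₁ ≃ₗ[R₀₁] G'.N₀₁ := LinearEquiv.ofLinearMap f01 g01 hfg hgf
  have he₀₁ : ∀ m, e₀₁ (G.r₀ m) = G'.r₀ (e₀ m) := hf01
  -- second chart
  obtain ⟨⟨u, hu, huc⟩, hJ₁⟩ := secIdeal_chart₁ x₀ y₁ hxy G n J s₀ s₁ hs hspan hgen
  obtain ⟨⟨u', hu', huc'⟩, hJ₁'⟩ := secIdeal_chart₁ x₀ y₁ hxy G' n J s₀' s₁' hs' hspan' hgen'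
  have hJJ : secIdeal (R := R₁) s₁' = secIdeal (R := R₁) s₁ :=
    ideal_eq_of_map_eq_of_isCoprime (S := R₀₁) y₁ hu' hu huc' huc (hJ₁'.trans hJ₁.symm)
  have hsp₁ : Submodule.span R₁ {s₁} = secIdeal (R := R₁) s₁ • (⊤ : Submodule R₁ G.N₁) :=
    (secIdeal_smul_top s₁).symm
  have hsp₁' : Submodule.span R₁ {s₁'} = secIdeal (R := R₁) s₁ • (⊤ : Submodule R₁ G'.N₁) := by
    rw [← hJJ]
    exact (secIdeal_smul_top s₁').symm
  obtain ⟨t₁, ht₁, ht₁r, ht₁r'⟩ :=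
    exists_nonZeroDivisor_chart₁ x₀ y₁ hinj J (secIdeal (R := R₁) s₁) hJ₁ ht htr
  have htf₁ : ∀ r : R₁, r • s₁ = 0 → r = 0 := fun r hr =>
    smul_eq_zero_of_span_eq ht₁ ht₁r hsp₁ hr
  have htf₁' : ∀ r : R₁, r • s₁' = 0 → r = 0 := fun r hr =>
    smul_eq_zero_of_span_eq ht₁ ht₁r hsp₁' hr
  have hreg₁ : IsSMulRegular G.N₁ t₁ := Module.Flat.isSMulRegular_of_nonZeroDivisors ht₁r
  have hreg₁' : IsSMulRegular G'.N₁ t₁ := Module.Flat.isSMulRegular_of_nonZeroDivisors ht₁r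
  obtain ⟨e₁, he₁⟩ := exists_equiv_of_span_eq (secIdeal (R := R₁) s₁) t₁ ht₁ s₁ s₁' hsp₁ hsp₁'
    hreg₁ hreg₁' htf₁ htf₁'
  -- compatibility on the second chart
  have hyx : (algebraMap R₁ R₀₁ y₁) ^ n * (algebraMap R₀ R₀₁ x₀) ^ n = 1 := by
    rw [← mul_pow, mul_comm, hxy, one_pow]
  have hr₁ : ∀ (H : GlueDatum A R₀ R₁ R₀₁) (a : H.N₀) (b : H.N₁),
      H.r₀ a = (algebraMap R₀ R₀₁ x₀) ^ n • H.r₁ b →
        H.r₁ b = (algebraMap R₁ R₀₁ y₁) ^ n • H.r₀ a := by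
    intro H a b hab
    rw [hab, ← mul_smul, hyx, one_smul]
  have hcomm_s : e₀₁ (G.r₁ s₁) = G'.r₁ s₁' := by
    rw [hr₁ G s₀ s₁ hs, map_smul, he₀₁, he₀, ← hr₁ G' s₀' s₁' hs']
  have hreg₀₁ : IsSMulRegular G'.N₀₁ (algebraMap R₁ R₀₁ t₁) :=
    Module.Flat.isSMulRegular_of_nonZeroDivisors ht₁r'
  have hcomm : ∀ m, e₀₁ (G.r₁ m) = G'.r₁ (e₁ m) := by
    intro m
    have h1 : t₁ • m ∈ Submodule.span R₁ {s₁} := by
      rw [hsp₁]
      exact Submodule.smul_mem_smul ht₁ trivial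
    obtain ⟨c, hc⟩ := Submodule.mem_span_singleton.1 h1
    apply hreg₀₁
    change algebraMap R₁ R₀₁ t₁ • e₀₁ (G.r₁ m) = algebraMap R₁ R₀₁ t₁ • G'.r₁ (e₁ m)
    have hL : algebraMap R₁ R₀₁ t₁ • e₀₁ (G.r₁ m) = algebraMap R₁ R₀₁ c • G'.r₁ s₁' := by
      rw [← map_smul e₀₁ (algebraMap R₁ R₀₁ t₁), algebraMap_smul, ← map_smul G.r₁ t₁ m, ← hc,
        map_smul G.r₁ c s₁, ← algebraMap_smul R₀₁ c (G.r₁ s₁), map_smul e₀₁, hcomm_s]
    have hR : algebraMap R₁ R₀₁ t₁ • G'.r₁ (e₁ m) = algebraMap R₁ R₀₁ c • G'.r₁ s₁' := by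
      rw [algebraMap_smul, ← map_smul G'.r₁ t₁, ← map_smul e₁ t₁ m, ← hc, map_smul e₁ c s₁, he₁,
        map_smul G'.r₁ c s₁', algebraMap_smul]
    rw [hL, hR]
  exact ⟨⟨e₀, e₁, e₀₁, he₀₁, hcomm⟩⟩

end Glue

end Fermat.Agent.S25.H851
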