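import Fermat.Agent.S25.H11.ACDefs
import Fermat.Agent.S25.H250.ChartAlg
import Fermat.Agent.S25.H851.HilbGD
import Fermat.Agent.S25.H851.ACIsoGlue

/-!
# S25 / ALGCHARTS, leaf PT-ISO (helper851)

`pointCond_iso` (the skeleton statement, verbatim): two gluing data which are points of the same
chart with the same Hilbert coordinates are isomorphic.

More generally (`curveGD_isIso_of_sections`): two gluing data `G`, `G'` on `C_A` with sections
`s`, `s'` of the `n`-th twist, generating modulo `y`, with the same divisor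
`span {s.1} = J • ⊤`, `span {s'.1} = J • ⊤` on the first chart, where `J` contains a
nonzerodivisor, are isomorphic.  A monic polynomial in `1 ⊗ x` is a nonzerodivisor
(`aeval_monic_mem_nonZeroDivisors`), and the ideal `univIdeal · I_q` of a chart contains one
(`exists_nonZeroDivisor_mem_chart`).
-/

set_option autoImplicit false
set_option linter.style.haveILetI false
set_option linter.unusedSectionVars false
set_option linter.unusedVariables false

universe u

open scoped TensorProduct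
open Polynomial

namespace Fermat.Agent.S25.H851

open Fermat.Agent.S25 Fermat.Agent.S25.H11

section General

variable {k : Type u} [Field k]
  {B₀ B₁ B₀₁ : Type u} [CommRing B₀] [CommRing B₁] [CommRing B₀₁]
  [Algebra k B₀] [Algebra k B₁] [Algebra k B₀₁] [Algebra B₀ B₀₁] [Algebra B₁ B₀₁]
  [IsScalarTower k B₀ B₀₁] [IsScalarTower k B₁ B₀₁]
  {x : B₀} {y : B₁} {e : B₁ →ₐ[k] k}
  {A : Type u} [CommRing A] [Algebra k A]

/-- A monic polynomial in `1 ⊗ x` is a nonzerodivisor of `A ⊗ B₀`. -/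
theorem aeval_monic_mem_nonZeroDivisors (hC : IsCurveChart k B₀ B₁ B₀₁ x y e) {P : A[X]}
    (hP : P.Monic) :
    Polynomial.aeval ((1 : A) ⊗ₜ[k] x : A ⊗[k] B₀) P ∈ nonZeroDivisors (A ⊗[k] B₀) := by
  haveI := hC.isDomain₀
  obtain ⟨n, φ, hφ⟩ := H250.exists_equivariant_equiv (H250.aeval_x_injective hC) hC.finite₀
  obtain ⟨Φ, hΦ⟩ := H250.exists_equivariant_equiv_tensor φ hφ A
  have hpow : ∀ (j : ℕ) (z : A ⊗[k] B₀),
      Φ (((1 : A) ⊗ₜ[k] x) ^ j * z) = (X : A[X]) ^ j • Φ z := by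
    intro j
    induction j with
    | zero => intro z; simp
    | succ j ih =>
      intro z
      rw [pow_succ, mul_assoc, ih, hΦ, pow_succ, mul_smul]
  have key : ∀ (Q : A[X]) (z : A ⊗[k] B₀),
      Φ (Polynomial.aeval ((1 : A) ⊗ₜ[k] x : A ⊗[k] B₀) Q * z) = Q • Φ z := by
    intro Q
    induction Q using Polynomial.induction_on' with
    | add p q hp hq =>
      intro z
      rw [map_add, add_mul, map_add, hp, hq, add_smul]
    | monomial j a =>
      intro z
      have haev : Polynomial.aeval ((1 : A) ⊗ₜ[k] x : A ⊗[k] B₀) (monomial j a) =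
          algebraMap A (A ⊗[k] B₀) a * ((1 : A) ⊗ₜ[k] x) ^ j := by
        rw [← Polynomial.C_mul_X_pow_eq_monomial]
        simp
      rw [haev, mul_assoc, ← Algebra.smul_def, map_smul, hpow, ← Polynomial.C_mul_X_pow_eq_monomial,
        mul_smul]
      ext i : 1
      simp only [Pi.smul_apply, smul_eq_mul]
      rw [Polynomial.smul_eq_C_mul]
  rw [mem_nonZeroDivisors_iff_right]
  intro z hz
  have h1 : P • Φ z = 0 := by rw [← key, mul_comm, hz, map_zero]
  have h2 : Φ z = 0 := by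
    funext i
    have := congrFun h1 i
    simp only [Pi.smul_apply, smul_eq_mul, Pi.zero_apply] at this
    exact hP.mul_right_eq_zero_iff.1 this
  exact Φ.map_eq_zero_iff.1 h2

/-- The ideal of the points `q` contains a monic polynomial in `1 ⊗ x`. -/
theorem exists_monic_aeval_mem_ptIdeal {m : ℕ} (q : Fin m → (B₀ →ₐ[k] k)) :
    ∃ P : A[X], P.Monic ∧ Polynomial.aeval ((1 : A) ⊗ₜ[k] x : A ⊗[k] B₀) P ∈ ptIdeal q A := by
  refine ⟨∏ i, (X - C (algebraMap k A (q i x))), Polynomial.monic_prod_of_monic _ _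
    (fun i _ => Polynomial.monic_X_sub_C _), ?_⟩
  rw [map_prod]
  apply Ideal.prod_mem_prod
  intro i _
  rw [RingHom.mem_ker, map_sub, Polynomial.aeval_X, Polynomial.aeval_C, map_sub, ptHom_tmul,
    AlgHom.commutes, one_mul]
  exact sub_self _

/-- The ideal `univIdeal · I_q` of a chart contains a nonzerodivisor. -/
theorem exists_nonZeroDivisor_mem_chart (hC : IsCurveChart k B₀ B₁ B₀₁ x y e) {g m : ℕ}
    (β : Fin g → B₀) (q : Fin m → (B₀ →ₐ[k] k)) (φ₀ : H491.Rβ k β →ₐ[k] A) :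
    ∃ t ∈ (H491.univIdeal (k := k) β).map (H491.bc B₀ φ₀) * ptIdeal q A,
      t ∈ nonZeroDivisors (A ⊗[k] B₀) := by
  have hch : H491.IsChart β ((H491.univIdeal (k := k) β).map (H491.bc B₀ φ₀)) :=
    (H491.isChart_univIdeal β).map φ₀
  haveI := hch.isHilb.finite
  obtain ⟨P₁, hP₁, hP₁mem⟩ := exists_monic_aeval_mem (A := A)
    ((H491.univIdeal (k := k) β).map (H491.bc B₀ φ₀)) ((1 : A) ⊗ₜ[k] x)
  obtain ⟨P₂, hP₂, hP₂mem⟩ := exists_monic_aeval_mem_ptIdeal (A := A) (x := x) q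
  refine ⟨Polynomial.aeval ((1 : A) ⊗ₜ[k] x : A ⊗[k] B₀) (P₁ * P₂), ?_,
    aeval_monic_mem_nonZeroDivisors hC (hP₁.mul hP₂)⟩
  rw [map_mul]
  exact Ideal.mul_mem_mul hP₁mem hP₂mem

/-- **PT-ISO, general form.** Two gluing data on `C_A` with sections of the `n`-th twist which
generate modulo `y` and have the same divisor `J` on the first chart are isomorphic. -/
theorem curveGD_isIso_of_sections (hC : IsCurveChart k B₀ B₁ B₀₁ x y e) (n : ℕ)
    (J : Ideal (A ⊗[k] B₀)) {t : A ⊗[k] B₀} (ht : t ∈ J)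
    (htr : t ∈ nonZeroDivisors (A ⊗[k] B₀)) {G G' : CurveGD k B₀ B₁ B₀₁ A}
    (s : G.N₀ × G.N₁) (s' : G'.N₀ × G'.N₁) (hs : s ∈ sec x n G) (hs' : s' ∈ sec x n G')
    (hgen : GenModY y G s.2) (hgen' : GenModY y G' s'.2)
    (hspan : Submodule.span (A ⊗[k] B₀) {s.1} = J • (⊤ : Submodule (A ⊗[k] B₀) G.N₀))
    (hspan' : Submodule.span (A ⊗[k] B₀) {s'.1} = J • (⊤ : Submodule (A ⊗[k] B₀) G'.N₀)) :
    G.IsIso G' := by
  haveI := away_tensor₀ A hC
  haveI := away_tensor₁ A hC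
  have hx : algebraMap (A ⊗[k] B₀) (A ⊗[k] B₀₁) ((1 : A) ⊗ₜ[k] x) = xElt k B₀₁ A x :=
    H250.algebraMap_tensor_tmul A B₀ B₀₁ (1 : A) x
  refine isIso_of_sections ((1 : A) ⊗ₜ[k] x) ((1 : A) ⊗ₜ[k] y) (tensor_xy A hC)
    (injective_tensor₁ A hC) G G' n J t ht htr s.1 s.2 s'.1 s'.2 ?_ ?_ hspan hspan' hgen hgen'
  · rw [hx]
    exact mem_sec.1 hs
  · rw [hx]
    exact mem_sec.1 hs'

end General

section Points

variable {k : Type u} [Field k] [IsAlgClosed k]
  {B₀ B₁ B₀₁ : Type u} [CommRing B₀] [CommRing B₁] [CommRing B₀₁]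
  [Algebra k B₀] [Algebra k B₁] [Algebra k B₀₁] [Algebra B₀ B₀₁] [Algebra B₁ B₀₁]
  [IsScalarTower k B₀ B₀₁] [IsScalarTower k B₁ B₀₁]
  {x : B₀} {y : B₁} {e : B₁ →ₐ[k] k}

variable {A A' : Type u} [CommRing A] [Algebra k A] [CommRing A'] [Algebra k A']

/-- **PT-ISO** (skeleton statement, verbatim): two gluing data with the same Hilbert coordinates
are isomorphic. -/
theorem pointCond_iso (hC : IsCurveChart k B₀ B₁ B₀₁ x y e) (i : ChartIndex k B₀)
    {G G' : CurveGD k B₀ B₁ B₀₁ A} {φ₀ : H491.Rβ k i.β →ₐ[k] A}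
    (h : PointCond x y i G φ₀) (h' : PointCond x y i G' φ₀) : G.IsIso G' := by
  obtain ⟨s, hs, hspan⟩ := h.sect
  obtain ⟨s', hs', hspan'⟩ := h'.sect
  obtain ⟨t, ht, htr⟩ := exists_nonZeroDivisor_mem_chart hC i.β i.q φ₀
  exact curveGD_isIso_of_sections hC i.n _ ht htr s s' hs.mem.1 hs'.mem.1 hs.gen hs'.gen
    hspan hspan'

end Points

end Fermat.Agent.S25.H851
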