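import Mathlib

/-!
# S25 / HILB / H1 (helper851): framed points of the Hilbert functor of an affine scheme

`k` a commutative ring, `B` a commutative `k`-algebra, `β : Fin g → B`.
For a `k`-algebra `A`, a *`β`-framed ideal* is an ideal `I` of `A ⊗[k] B` such that the classes of
`1 ⊗ β i` form an `A`-basis of `(A ⊗[k] B) ⧸ I`.

A *framed point* is a pair `(ρ, c)`: a `k`-algebra map `ρ : B → M_g(A)` ("commuting matrices")
and a vector `c : A^g` ("cyclic vector") with `ρ (β i) c = e_i`.

Main results of this file: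
* `FramedPt.ideal` : the ideal attached to a framed point, with `FramedPt.ideal_isFramed`;
* `FramedPt.ofIdeal` : the framed point attached to a framed ideal;
* `framedEquiv : FramedPt k B β A ≃ {I : Ideal (A ⊗[k] B) // IsFramed k B β I}`;
* `FramedPt.map` (base change along `A →ₐ[k] A'`) and
  `FramedPt.ideal_map : (P.map ψ).ideal = Ideal.map (ψ ⊗ id) P.ideal`.
-/

set_option autoImplicit false

open scoped TensorProduct

namespace Fermat.Agent.S25.H851

universe u v w w'

variable (k : Type u) [CommRing k] (B : Type v) [CommRing B] [Algebra k B]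
variable {g : ℕ} (β : Fin g → B)

/-- The classes of `1 ⊗ β i` in `(A ⊗[k] B) ⧸ I`. -/
noncomputable def frameVec {A : Type w} [CommRing A] [Algebra k A] (I : Ideal (A ⊗[k] B))
    (i : Fin g) : (A ⊗[k] B) ⧸ I :=
  Ideal.Quotient.mk I ((1 : A) ⊗ₜ[k] β i)

/-- `I` is `β`-framed: the classes of `1 ⊗ β i` form an `A`-basis of the quotient. -/
def IsFramed {A : Type w} [CommRing A] [Algebra k A] (I : Ideal (A ⊗[k] B)) : Prop :=
  Function.Bijective (Fintype.linearCombination A (frameVec k B β I))

/-- A framed point: commuting matrices and a cyclic vector. -/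
structure FramedPt (A : Type w) [CommRing A] [Algebra k A] where
  /-- the matrices -/
  ρ : B →ₐ[k] Matrix (Fin g) (Fin g) A
  /-- the cyclic vector (coordinates of `1`) -/
  c : Fin g → A
  /-- `β i` applied to the cyclic vector is the `i`-th basis vector -/
  frame : ∀ i, (ρ (β i)).mulVec c = Pi.single i 1

namespace FramedPt

variable {k B β}
variable {A : Type w} [CommRing A] [Algebra k A]

@[ext]
theorem ext' {P Q : FramedPt k B β A} (hρ : P.ρ = Q.ρ) (hc : P.c = Q.c) : P = Q := by
  cases P; cases Q; simp_all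

/-- The images of `ρ` commute. -/
theorem commute (P : FramedPt k B β A) (b b' : B) : Commute (P.ρ b) (P.ρ b') := by
  unfold Commute SemiconjBy
  rw [← map_mul, ← map_mul, mul_comm]

/-- The `A`-algebra map `A ⊗[k] B → M_g(A)` extending `ρ`. -/
noncomputable def ρA (P : FramedPt k B β A) : A ⊗[k] B →ₐ[A] Matrix (Fin g) (Fin g) A :=
  Algebra.TensorProduct.lift (Algebra.ofId A (Matrix (Fin g) (Fin g) A)) P.ρ
    (by intro a b; exact Algebra.commute_algebraMap_left a (P.ρ b))

@[simp]
theorem ρA_tmul (P : FramedPt k B β A) (a : A) (b : B) :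
    P.ρA (a ⊗ₜ[k] b) = a • P.ρ b := by
  refine (Algebra.TensorProduct.lift_tmul _ _ _ a b).trans ?_
  rw [Algebra.ofId_apply, Algebra.algebraMap_eq_smul_one, smul_mul_assoc, one_mul]

/-- The `A`-linear map `A ⊗[k] B → A^g`, `x ↦ ρ(x) c`. -/
noncomputable def φ (P : FramedPt k B β A) : A ⊗[k] B →ₗ[A] (Fin g → A) where
  toFun x := (P.ρA x).mulVec P.c
  map_add' x y := by rw [map_add, Matrix.add_mulVec]
  map_smul' a x := by
    rw [map_smul, Matrix.smul_mulVec, RingHom.id_apply]

theorem φ_apply (P : FramedPt k B β A) (x : A ⊗[k] B) : P.φ x = (P.ρA x).mulVec P.c := rfl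

theorem φ_mul (P : FramedPt k B β A) (x y : A ⊗[k] B) :
    P.φ (x * y) = (P.ρA x).mulVec (P.φ y) := by
  simp only [φ_apply, map_mul, Matrix.mulVec_mulVec]

@[simp]
theorem φ_frame (P : FramedPt k B β A) (i : Fin g) :
    P.φ ((1 : A) ⊗ₜ[k] β i) = Pi.single i 1 := by
  rw [φ_apply, ρA_tmul, one_smul, P.frame]

theorem φ_surjective (P : FramedPt k B β A) : Function.Surjective P.φ := by
  intro v
  refine ⟨∑ i, v i • ((1 : A) ⊗ₜ[k] β i), ?_⟩
  rw [map_sum]
  simp only [map_smul, φ_frame]
  ext j
  simp [Finset.sum_apply, Pi.single_apply]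

/-- The ideal attached to a framed point: the kernel of `x ↦ ρ(x) c`. -/
noncomputable def ideal (P : FramedPt k B β A) : Ideal (A ⊗[k] B) where
  carrier := {x | P.φ x = 0}
  add_mem' {x y} hx hy := by
    simp only [Set.mem_ofPred_eq] at hx hy ⊢
    rw [map_add, hx, hy, add_zero]
  zero_mem' := by simp
  smul_mem' y x hx := by
    simp only [Set.mem_ofPred_eq, smul_eq_mul] at hx ⊢
    rw [φ_mul, hx, Matrix.mulVec_zero]

theorem mem_ideal (P : FramedPt k B β A) (x : A ⊗[k] B) : x ∈ P.ideal ↔ P.φ x = 0 := Iff.rfl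

/-- The canonical representative `∑ aᵢ (1 ⊗ βᵢ)`. -/
noncomputable def rep (β : Fin g → B) (a : Fin g → A) : A ⊗[k] B :=
  ∑ i, a i • ((1 : A) ⊗ₜ[k] β i)

theorem φ_rep (P : FramedPt k B β A) (a : Fin g → A) : P.φ (rep β a) = a := by
  rw [rep, map_sum]
  simp only [map_smul, φ_frame]
  ext j
  simp [Finset.sum_apply, Pi.single_apply]

theorem sub_rep_mem (P : FramedPt k B β A) (x : A ⊗[k] B) : x - rep β (P.φ x) ∈ P.ideal := by
  rw [mem_ideal, map_sub, φ_rep, sub_self]

end FramedPt

section Quot

variable {k B}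
variable {A : Type w} [CommRing A] [Algebra k A]

theorem mk_smul (I : Ideal (A ⊗[k] B)) (a : A) (x : A ⊗[k] B) :
    Ideal.Quotient.mk I (a • x) = a • Ideal.Quotient.mk I x := rfl

theorem linearCombination_frameVec (I : Ideal (A ⊗[k] B)) (a : Fin g → A) :
    Fintype.linearCombination A (frameVec k B β I) a = Ideal.Quotient.mk I (FramedPt.rep β a) := by
  rw [Fintype.linearCombination_apply, FramedPt.rep, map_sum]
  rfl

end Quot

namespace FramedPt

variable {k B β}
variable {A : Type w} [CommRing A] [Algebra k A]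

theorem ideal_isFramed (P : FramedPt k B β A) : IsFramed k B β P.ideal := by
  constructor
  · intro a a' h
    rw [linearCombination_frameVec, linearCombination_frameVec, Ideal.Quotient.eq, mem_ideal,
      map_sub, φ_rep, φ_rep, sub_eq_zero] at h
    exact h
  · intro q
    obtain ⟨x, rfl⟩ := Ideal.Quotient.mk_surjective q
    refine ⟨P.φ x, ?_⟩
    rw [linearCombination_frameVec, eq_comm, Ideal.Quotient.eq]
    exact P.sub_rep_mem x

end FramedPt

section OfIdeal

variable {k B β}
variable {A : Type w} [CommRing A] [Algebra k A]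
variable {I : Ideal (A ⊗[k] B)}

/-- `rep` as a linear map. -/
noncomputable def repL (β : Fin g → B) : (Fin g → A) →ₗ[A] A ⊗[k] B :=
  Fintype.linearCombination A (fun i => (1 : A) ⊗ₜ[k] β i)

theorem repL_apply (a : Fin g → A) : repL (k := k) β a = FramedPt.rep β a := by
  rw [repL, Fintype.linearCombination_apply, FramedPt.rep]

/-- The basis isomorphism of a framed ideal. -/
noncomputable def frameEquiv (h : IsFramed k B β I) : (Fin g → A) ≃ₗ[A] (A ⊗[k] B) ⧸ I :=
  LinearEquiv.ofBijective _ h

theorem frameEquiv_apply (h : IsFramed k B β I) (a : Fin g → A) :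
    frameEquiv h a = Ideal.Quotient.mk I (FramedPt.rep β a) :=
  linearCombination_frameVec β I a

/-- Coordinates of (the class of) an element, as a linear map. -/
noncomputable def coordL (h : IsFramed k B β I) : A ⊗[k] B →ₗ[A] (Fin g → A) :=
  (frameEquiv h).symm.toLinearMap ∘ₗ (Ideal.Quotient.mkₐ A I).toLinearMap

theorem coordL_apply (h : IsFramed k B β I) (x : A ⊗[k] B) :
    coordL h x = (frameEquiv h).symm (Ideal.Quotient.mk I x) := rfl

theorem coordL_rep (h : IsFramed k B β I) (a : Fin g → A) :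
    coordL h (FramedPt.rep β a) = a := by
  rw [coordL_apply, ← frameEquiv_apply h, LinearEquiv.symm_apply_apply]

theorem mk_rep_coordL (h : IsFramed k B β I) (x : A ⊗[k] B) :
    Ideal.Quotient.mk I (FramedPt.rep β (coordL h x)) = Ideal.Quotient.mk I x := by
  rw [← frameEquiv_apply h, coordL_apply, LinearEquiv.apply_symm_apply]

theorem coordL_eq_zero_iff (h : IsFramed k B β I) (x : A ⊗[k] B) :
    coordL h x = 0 ↔ x ∈ I := by
  rw [coordL_apply, LinearEquiv.map_eq_zero_iff, Ideal.Quotient.eq_zero_iff_mem]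

theorem coordL_eq_of_mk_eq (h : IsFramed k B β I) {x y : A ⊗[k] B}
    (hxy : Ideal.Quotient.mk I x = Ideal.Quotient.mk I y) : coordL h x = coordL h y := by
  rw [coordL_apply, coordL_apply, hxy]

/-- Multiplication by `y` in coordinates. -/
noncomputable def mulLin (h : IsFramed k B β I) (y : A ⊗[k] B) :
    (Fin g → A) →ₗ[A] (Fin g → A) :=
  coordL h ∘ₗ LinearMap.mulLeft A y ∘ₗ repL β

theorem mulLin_apply (h : IsFramed k B β I) (y : A ⊗[k] B) (a : Fin g → A) :
    mulLin h y a = coordL h (y * FramedPt.rep β a) := by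
  simp [mulLin, repL_apply]

theorem mulLin_mul (h : IsFramed k B β I) (y y' : A ⊗[k] B) :
    mulLin h (y * y') = mulLin h y ∘ₗ mulLin h y' := by
  refine LinearMap.ext fun a => ?_
  rw [LinearMap.comp_apply, mulLin_apply, mulLin_apply, mulLin_apply]
  apply coordL_eq_of_mk_eq
  rw [mul_assoc, map_mul, map_mul (Ideal.Quotient.mk I) y (FramedPt.rep β _), mk_rep_coordL]

theorem mulLin_one (h : IsFramed k B β I) : mulLin h 1 = LinearMap.id := by
  refine LinearMap.ext fun a => ?_
  rw [mulLin_apply, one_mul, coordL_rep, LinearMap.id_apply]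

/-- Multiplication matrices, as an `A`-algebra map `A ⊗[k] B → M_g(A)`. -/
noncomputable def mulMat (h : IsFramed k B β I) : A ⊗[k] B →ₐ[A] Matrix (Fin g) (Fin g) A :=
  AlgHom.ofLinearMap
    { toFun := fun y => LinearMap.toMatrix' (mulLin h y)
      map_add' := fun y y' => by
        rw [← map_add]
        congr 1
        refine LinearMap.ext fun a => ?_
        simp only [mulLin_apply, LinearMap.add_apply, add_mul, map_add]
      map_smul' := fun a y => by
        rw [RingHom.id_apply, ← map_smul]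
        congr 1
        refine LinearMap.ext fun v => ?_
        simp only [mulLin_apply, LinearMap.smul_apply, smul_mul_assoc, map_smul] }
    (by
      show LinearMap.toMatrix' (mulLin h 1) = 1
      rw [mulLin_one, LinearMap.toMatrix'_id])
    (fun y y' => by
      show LinearMap.toMatrix' (mulLin h (y * y')) =
        LinearMap.toMatrix' (mulLin h y) * LinearMap.toMatrix' (mulLin h y')
      rw [mulLin_mul, LinearMap.toMatrix'_comp])

theorem mulMat_mulVec (h : IsFramed k B β I) (y : A ⊗[k] B) (a : Fin g → A) :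
    (mulMat h y).mulVec a = coordL h (y * FramedPt.rep β a) := by
  show (LinearMap.toMatrix' (mulLin h y)).mulVec a = _
  rw [LinearMap.toMatrix'_mulVec, mulLin_apply]

/-- The framed point attached to a framed ideal. -/
noncomputable def FramedPt.ofIdeal (I : Ideal (A ⊗[k] B)) (h : IsFramed k B β I) :
    FramedPt k B β A where
  ρ := ((mulMat h).restrictScalars k).comp Algebra.TensorProduct.includeRight
  c := coordL h 1
  frame := fun i => by
    show (mulMat h ((1 : A) ⊗ₜ[k] β i)).mulVec (coordL h 1) = _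
    rw [mulMat_mulVec]
    have h1 : coordL h ((1 : A) ⊗ₜ[k] β i * FramedPt.rep β (coordL h 1)) =
        coordL h ((1 : A) ⊗ₜ[k] β i) := by
      apply coordL_eq_of_mk_eq
      rw [map_mul, mk_rep_coordL, ← map_mul, mul_one]
    rw [h1]
    have h2 : (1 : A) ⊗ₜ[k] β i = FramedPt.rep (k := k) (A := A) β (Pi.single i 1) := by
      rw [FramedPt.rep, Finset.sum_eq_single i]
      · simp
      · intro j _ hj
        simp [hj]
      · intro hi
        exact absurd (Finset.mem_univ i) hi
    rw [h2, coordL_rep]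

end OfIdeal

section Equiv

variable {k B β}
variable {A : Type w} [CommRing A] [Algebra k A]

theorem FramedPt.coordL_ideal (P : FramedPt k B β A) (x : A ⊗[k] B) :
    coordL P.ideal_isFramed x = P.φ x := by
  rw [coordL_apply, LinearEquiv.symm_apply_eq, frameEquiv_apply, Ideal.Quotient.eq]
  exact P.sub_rep_mem x

theorem FramedPt.ρA_one_tmul (P : FramedPt k B β A) (b : B) : P.ρA ((1 : A) ⊗ₜ[k] b) = P.ρ b := by
  rw [FramedPt.ρA_tmul, one_smul]

theorem FramedPt.ofIdeal_ideal (P : FramedPt k B β A) :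
    FramedPt.ofIdeal P.ideal P.ideal_isFramed = P := by
  apply FramedPt.ext'
  · apply AlgHom.ext
    intro b
    show mulMat P.ideal_isFramed ((1 : A) ⊗ₜ[k] b) = P.ρ b
    apply Matrix.toLin'.injective
    refine LinearMap.ext fun a => ?_
    rw [Matrix.toLin'_apply, Matrix.toLin'_apply, mulMat_mulVec, FramedPt.coordL_ideal,
      FramedPt.φ_mul, FramedPt.φ_rep, FramedPt.ρA_one_tmul]
  · show coordL P.ideal_isFramed 1 = P.c
    rw [FramedPt.coordL_ideal, FramedPt.φ_apply, map_one, Matrix.one_mulVec]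

theorem FramedPt.ofIdeal_φ {I : Ideal (A ⊗[k] B)} (h : IsFramed k B β I) (x : A ⊗[k] B) :
    (FramedPt.ofIdeal I h).φ x = coordL h x := by
  induction x using TensorProduct.induction_on with
  | zero => rw [map_zero, map_zero]
  | add x y hx hy => rw [map_add, map_add, hx, hy]
  | tmul a b =>
    rw [FramedPt.φ_apply, FramedPt.ρA_tmul, Matrix.smul_mulVec]
    show a • (mulMat h ((1 : A) ⊗ₜ[k] b)).mulVec (coordL h 1) = _
    rw [mulMat_mulVec]
    have h1 : coordL h ((1 : A) ⊗ₜ[k] b * FramedPt.rep β (coordL h 1)) =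
        coordL h ((1 : A) ⊗ₜ[k] b) := by
      apply coordL_eq_of_mk_eq
      rw [map_mul, mk_rep_coordL, ← map_mul, mul_one]
    rw [h1, ← map_smul, TensorProduct.smul_tmul', smul_eq_mul, mul_one]

theorem FramedPt.ideal_ofIdeal {I : Ideal (A ⊗[k] B)} (h : IsFramed k B β I) :
    (FramedPt.ofIdeal I h).ideal = I := by
  ext x
  rw [FramedPt.mem_ideal, FramedPt.ofIdeal_φ, coordL_eq_zero_iff]

/-- **H1, part 1**: framed points = framed ideals. -/
noncomputable def framedEquiv :
    FramedPt k B β A ≃ {I : Ideal (A ⊗[k] B) // IsFramed k B β I} where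
  toFun P := ⟨P.ideal, P.ideal_isFramed⟩
  invFun I := FramedPt.ofIdeal I.1 I.2
  left_inv P := P.ofIdeal_ideal
  right_inv I := Subtype.ext (FramedPt.ideal_ofIdeal I.2)

@[simp]
theorem framedEquiv_apply_coe (P : FramedPt k B β A) :
    ((framedEquiv P : {I : Ideal (A ⊗[k] B) // IsFramed k B β I}) : Ideal (A ⊗[k] B)) =
      P.ideal := rfl

end Equiv

section BaseChange

variable {k B β}
variable {A : Type w} [CommRing A] [Algebra k A] {A' : Type w'} [CommRing A'] [Algebra k A']

/-- Base change of a framed point along `ψ : A →ₐ[k] A'`. -/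
noncomputable def FramedPt.map (ψ : A →ₐ[k] A') (P : FramedPt k B β A) : FramedPt k B β A' where
  ρ := ψ.mapMatrix.comp P.ρ
  c := fun i => ψ (P.c i)
  frame := fun i => by
    have h := congrArg (fun v : Fin g → A => fun j => ψ (v j)) (P.frame i)
    have h2 : ((ψ.mapMatrix.comp P.ρ) (β i)).mulVec (fun j => ψ (P.c j)) =
        fun j => ψ ((P.ρ (β i)).mulVec P.c j) := by
      ext j
      simp only [AlgHom.comp_apply, AlgHom.mapMatrix_apply, Matrix.mulVec, dotProduct,
        Matrix.map_apply, map_sum, map_mul]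
    rw [h2, h]
    ext j
    simp [Pi.single_apply, apply_ite ψ]

theorem FramedPt.map_ρ (ψ : A →ₐ[k] A') (P : FramedPt k B β A) (b : B) :
    (P.map ψ).ρ b = (P.ρ b).map ψ := rfl

theorem FramedPt.map_c (ψ : A →ₐ[k] A') (P : FramedPt k B β A) (i : Fin g) :
    (P.map ψ).c i = ψ (P.c i) := rfl

/-- The base change map `A ⊗[k] B → A' ⊗[k] B`. -/
noncomputable def tmap (B : Type v) [CommRing B] [Algebra k B] (ψ : A →ₐ[k] A') :
    A ⊗[k] B →ₐ[k] A' ⊗[k] B :=
  Algebra.TensorProduct.map ψ (AlgHom.id k B)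

@[simp]
theorem tmap_tmul (ψ : A →ₐ[k] A') (a : A) (b : B) :
    tmap B ψ (a ⊗ₜ[k] b) = ψ a ⊗ₜ[k] b := by
  simp [tmap]

theorem FramedPt.map_φ_tmap (ψ : A →ₐ[k] A') (P : FramedPt k B β A) (x : A ⊗[k] B) (j : Fin g) :
    (P.map ψ).φ (tmap B ψ x) j = ψ (P.φ x j) := by
  induction x using TensorProduct.induction_on with
  | zero => simp
  | add x y hx hy => rw [map_add, map_add, Pi.add_apply, hx, hy, map_add, Pi.add_apply, map_add]
  | tmul a b =>
    rw [tmap_tmul, FramedPt.φ_apply, FramedPt.φ_apply, FramedPt.ρA_tmul, FramedPt.ρA_tmul,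
      Matrix.smul_mulVec, Matrix.smul_mulVec, Pi.smul_apply, Pi.smul_apply, smul_eq_mul,
      smul_eq_mul, map_mul, FramedPt.map_ρ]
    congr 1
    simp only [Matrix.mulVec, dotProduct, Matrix.map_apply, map_sum, map_mul, FramedPt.map_c]

theorem tmap_rep (ψ : A →ₐ[k] A') (a : Fin g → A) :
    tmap B ψ (FramedPt.rep β a) = FramedPt.rep β (fun i => ψ (a i)) := by
  rw [FramedPt.rep, FramedPt.rep, map_sum]
  refine Finset.sum_congr rfl fun i _ => ?_
  rw [TensorProduct.smul_tmul', TensorProduct.smul_tmul', tmap_tmul, smul_eq_mul, smul_eq_mul,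
    mul_one, mul_one]

theorem FramedPt.rep_smul (a' : A') (v : Fin g → A') :
    FramedPt.rep (k := k) β (a' • v) = (a' ⊗ₜ[k] (1 : B)) * FramedPt.rep β v := by
  rw [FramedPt.rep, FramedPt.rep, Finset.mul_sum]
  refine Finset.sum_congr rfl fun i _ => ?_
  rw [TensorProduct.smul_tmul', TensorProduct.smul_tmul', Pi.smul_apply, smul_eq_mul, smul_eq_mul,
    mul_one, Algebra.TensorProduct.tmul_mul_tmul, one_mul, smul_eq_mul, mul_one]

theorem FramedPt.rep_add (v v' : Fin g → A') :
    FramedPt.rep (k := k) β (v + v') = FramedPt.rep β v + FramedPt.rep β v' := by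
  rw [← repL_apply, ← repL_apply, ← repL_apply, map_add]

/-- **H1, naturality**: the ideal of the base-changed framed point is the extension of the
ideal. -/
theorem FramedPt.ideal_map (ψ : A →ₐ[k] A') (P : FramedPt k B β A) :
    (P.map ψ).ideal = Ideal.map (tmap B ψ) P.ideal := by
  apply le_antisymm
  · -- every element is congruent to its canonical representative modulo the extended ideal
    have key : ∀ x' : A' ⊗[k] B,
        x' - FramedPt.rep β ((P.map ψ).φ x') ∈ Ideal.map (tmap B ψ) P.ideal := by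
      intro x'
      induction x' using TensorProduct.induction_on with
      | zero => simp [FramedPt.rep]
      | add x y hx hy =>
        have : x + y - FramedPt.rep β ((P.map ψ).φ (x + y)) =
            (x - FramedPt.rep β ((P.map ψ).φ x)) + (y - FramedPt.rep β ((P.map ψ).φ y)) := by
          rw [map_add, FramedPt.rep_add]; ring
        rw [this]
        exact Ideal.add_mem _ hx hy
      | tmul a' b =>
        have h1 : tmap B ψ ((1 : A) ⊗ₜ[k] b - FramedPt.rep β (P.φ ((1 : A) ⊗ₜ[k] b))) ∈
            Ideal.map (tmap B ψ) P.ideal :=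
          Ideal.mem_map_of_mem _ (P.sub_rep_mem _)
        rw [map_sub, tmap_tmul, map_one, tmap_rep] at h1
        have h2 : (fun i => ψ (P.φ ((1 : A) ⊗ₜ[k] b) i)) = (P.map ψ).φ ((1 : A') ⊗ₜ[k] b) := by
          ext j
          rw [← FramedPt.map_φ_tmap, tmap_tmul, map_one]
        rw [h2] at h1
        have h3 := Ideal.mul_mem_left _ (a' ⊗ₜ[k] (1 : B)) h1
        have h4 : a' ⊗ₜ[k] b = a' • ((1 : A') ⊗ₜ[k] b) := by
          rw [TensorProduct.smul_tmul', smul_eq_mul, mul_one]
        rw [mul_sub, Algebra.TensorProduct.tmul_mul_tmul, mul_one, one_mul,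
          ← FramedPt.rep_smul, ← map_smul, ← h4] at h3
        exact h3
    intro x' hx'
    have := key x'
    rw [(FramedPt.mem_ideal _ _).mp hx'] at this
    have h0 : FramedPt.rep (k := k) (A := A') β 0 = 0 := by simp [FramedPt.rep]
    rwa [h0, sub_zero] at this
  · rw [Ideal.map_le_iff_le_comap]
    intro x hx
    rw [Ideal.mem_comap, FramedPt.mem_ideal]
    ext j
    rw [FramedPt.map_φ_tmap, (FramedPt.mem_ideal _ _).mp hx]
    simp

end BaseChange

end Fermat.Agent.S25.H851
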