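import Fermat.Agent.S25.H851.Framed

/-!
# S25 / HILB / H1 (helper851): the representing algebra of the framed Hilbert functor

`RepAlg k B β` is the quotient of the polynomial ring on the entries of "generic matrices"
`X b` (`b : B`) and of a generic vector `c`, by the relations saying that `b ↦ X b` is a
`k`-algebra map and `X (β i) c = e_i`.

* `repEquiv : (RepAlg k B β →ₐ[k] A) ≃ FramedPt k B β A`, natural in `A` (`repEquiv_comp`);
* `hilbChartEquiv : (RepAlg k B β →ₐ[k] A) ≃ {I : Ideal (A ⊗[k] B) // IsFramed k B β I}`,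
  natural in `A` (`hilbChartEquiv_comp`);
* `RepAlg.finiteType` : `RepAlg k B β` is a finitely generated `k`-algebra if `B` is.
-/

set_option autoImplicit false

open scoped TensorProduct

namespace Fermat.Agent.S25.H851

universe u v w w'

variable (k : Type u) [CommRing k] (B : Type v) [CommRing B] [Algebra k B]
variable {g : ℕ} (β : Fin g → B)

/-- Generators: matrix entries `X b i j` and vector entries `c j`. -/
abbrev Gen (B : Type v) (g : ℕ) : Type v := (B × Fin g × Fin g) ⊕ Fin g

/-- The polynomial ring on the generators. -/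
abbrev GenPoly (B : Type v) (g : ℕ) : Type (max u v) := MvPolynomial (Gen B g) k

variable {B} in
/-- The generic matrix attached to `b`. -/
noncomputable def genMat (g : ℕ) (b : B) : Matrix (Fin g) (Fin g) (GenPoly k B g) :=
  Matrix.of fun i j => MvPolynomial.X (Sum.inl (b, i, j))

/-- The generic vector. -/
noncomputable def genVec (g : ℕ) : Fin g → GenPoly k B g :=
  fun j => MvPolynomial.X (Sum.inr j)

/-- The relations. -/
def rels : Set (GenPoly k B g) :=
  (Set.range fun p : B × B × Fin g × Fin g =>
      genMat k g (p.1 + p.2.1) p.2.2.1 p.2.2.2 - genMat k g p.1 p.2.2.1 p.2.2.2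
        - genMat k g p.2.1 p.2.2.1 p.2.2.2) ∪
  (Set.range fun p : B × B × Fin g × Fin g =>
      genMat k g (p.1 * p.2.1) p.2.2.1 p.2.2.2
        - (genMat k g p.1 * genMat k g p.2.1) p.2.2.1 p.2.2.2) ∪
  (Set.range fun p : k × Fin g × Fin g =>
      genMat k g (algebraMap k B p.1) p.2.1 p.2.2
        - MvPolynomial.C p.1 * (1 : Matrix (Fin g) (Fin g) (GenPoly k B g)) p.2.1 p.2.2) ∪
  (Set.range fun p : Fin g × Fin g =>
      (genMat k g (β p.1)).mulVec (genVec k B g) p.2
        - (Pi.single p.1 1 : Fin g → GenPoly k B g) p.2)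

/-- The representing algebra of the `β`-framed Hilbert functor. -/
abbrev RepAlg : Type (max u v) := GenPoly k B g ⧸ Ideal.span (rels k B β)

namespace RepAlg

variable {k B β}
variable {A : Type w} [CommRing A] [Algebra k A]

/-- The evaluation of generators attached to a framed point. -/
def evalGen (P : FramedPt k B β A) : Gen B g → A
  | Sum.inl (b, i, j) => P.ρ b i j
  | Sum.inr j => P.c j

theorem aeval_genMat (P : FramedPt k B β A) (b : B) :
    (genMat k g b).map (MvPolynomial.aeval (evalGen P)) = P.ρ b := by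
  ext i j
  simp [genMat, evalGen]

theorem aeval_genVec (P : FramedPt k B β A) (j : Fin g) :
    MvPolynomial.aeval (evalGen P) (genVec k B g j) = P.c j := by
  simp [genVec, evalGen]

theorem aeval_genMat_apply (P : FramedPt k B β A) (b : B) (i j : Fin g) :
    MvPolynomial.aeval (evalGen P) (genMat k g b i j) = P.ρ b i j := by
  simp [genMat, evalGen]

theorem aeval_rels (P : FramedPt k B β A) :
    ∀ x ∈ rels k B β, MvPolynomial.aeval (evalGen P) x = 0 := by
  intro x hx
  simp only [rels, Set.mem_union, Set.mem_range] at hx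
  rcases hx with ((⟨⟨b, b', i, j⟩, rfl⟩ | ⟨⟨b, b', i, j⟩, rfl⟩) | ⟨⟨r, i, j⟩, rfl⟩) | ⟨⟨i, l⟩, rfl⟩
  · simp only [map_sub, aeval_genMat_apply, map_add, Matrix.add_apply]
    ring
  · simp only [map_sub, aeval_genMat_apply, Matrix.mul_apply, map_sum, map_mul, sub_self]
  · simp only [map_sub, aeval_genMat_apply, map_mul, MvPolynomial.aeval_C, AlgHom.commutes,
      Matrix.algebraMap_matrix_apply, Matrix.one_apply]
    split_ifs <;> simp [Algebra.algebraMap_eq_smul_one]
  · have h := congrFun (P.frame i) l
    simp only [map_sub, Matrix.mulVec, dotProduct, map_sum, map_mul, aeval_genMat_apply,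
      aeval_genVec]
    simp only [Matrix.mulVec, dotProduct] at h
    rw [h]
    simp [Pi.single_apply, apply_ite (MvPolynomial.aeval (evalGen P))]

theorem aeval_span_rels (P : FramedPt k B β A) :
    ∀ a ∈ Ideal.span (rels k B β), MvPolynomial.aeval (evalGen P) a = 0 := by
  intro x hx
  have hle : Ideal.span (rels k B β) ≤ RingHom.ker (MvPolynomial.aeval (evalGen P)).toRingHom :=
    Ideal.span_le.mpr fun y hy => aeval_rels P y hy
  exact hle hx

/-- The algebra map attached to a framed point. -/
noncomputable def ofFramedPt (P : FramedPt k B β A) : RepAlg k B β →ₐ[k] A :=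
  Ideal.Quotient.liftₐ _ (MvPolynomial.aeval (evalGen P)) (aeval_span_rels P)

/-- The class of a generic matrix entry. -/
noncomputable def X (k : Type u) [CommRing k] [Algebra k B] (β : Fin g → B) (b : B)
    (i j : Fin g) : RepAlg k B β :=
  Ideal.Quotient.mk _ (genMat k g b i j)

/-- The class of a generic vector entry. -/
noncomputable def Y (k : Type u) [CommRing k] [Algebra k B] (β : Fin g → B) (j : Fin g) :
    RepAlg k B β :=
  Ideal.Quotient.mk _ (genVec k B g j)

/-- The universal matrix. -/
noncomputable def XMat (k : Type u) [CommRing k] [Algebra k B] (β : Fin g → B) (b : B) :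
    Matrix (Fin g) (Fin g) (RepAlg k B β) :=
  Matrix.of fun i j => X k β b i j

theorem mk_mem_rels {x : GenPoly k B g} (hx : x ∈ rels k B β) :
    Ideal.Quotient.mk (Ideal.span (rels k B β)) x = 0 :=
  Ideal.Quotient.eq_zero_iff_mem.mpr (Ideal.subset_span hx)

theorem XMat_add (b b' : B) : XMat k β (b + b') = XMat k β b + XMat k β b' := by
  ext i j
  have h : genMat k g (b + b') i j - genMat k g b i j - genMat k g b' i j ∈ rels k B β := by
    simp only [rels, Set.mem_union, Set.mem_range]
    exact Or.inl (Or.inl (Or.inl ⟨(b, b', i, j), rfl⟩))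
  have h2 := mk_mem_rels h
  rw [map_sub, map_sub, sub_sub, sub_eq_zero] at h2
  exact h2

theorem XMat_mul (b b' : B) : XMat k β (b * b') = XMat k β b * XMat k β b' := by
  ext i j
  have h : genMat k g (b * b') i j - (genMat k g b * genMat k g b') i j ∈ rels k B β := by
    simp only [rels, Set.mem_union, Set.mem_range]
    exact Or.inl (Or.inl (Or.inr ⟨(b, b', i, j), rfl⟩))
  have h2 := mk_mem_rels h
  rw [map_sub, sub_eq_zero] at h2
  rw [Matrix.mul_apply]
  simp only [Matrix.mul_apply, map_sum, map_mul] at h2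
  exact h2

theorem XMat_algebraMap (r : k) : XMat k β (algebraMap k B r) = algebraMap k _ r := by
  ext i j
  have h : genMat k g (algebraMap k B r) i j
      - MvPolynomial.C r * (1 : Matrix (Fin g) (Fin g) (GenPoly k B g)) i j ∈ rels k B β := by
    simp only [rels, Set.mem_union, Set.mem_range]
    exact Or.inl (Or.inr ⟨(r, i, j), rfl⟩)
  have h2 := mk_mem_rels h
  rw [map_sub, sub_eq_zero] at h2
  show X k β (algebraMap k B r) i j = _
  rw [X, h2, Matrix.algebraMap_matrix_apply, Matrix.one_apply]
  split_ifs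
  · rw [mul_one]; rfl
  · rw [mul_zero, map_zero]

theorem XMat_frame (i : Fin g) : (XMat k β (β i)).mulVec (Y k β) = Pi.single i 1 := by
  ext l
  have h : (genMat k g (β i)).mulVec (genVec k B g) l
      - (Pi.single i 1 : Fin g → GenPoly k B g) l ∈ rels k B β := by
    simp only [rels, Set.mem_union, Set.mem_range]
    exact Or.inr ⟨(i, l), rfl⟩
  have h2 := mk_mem_rels h
  rw [map_sub, sub_eq_zero] at h2
  simp only [Matrix.mulVec, dotProduct, map_sum, map_mul] at h2
  simp only [Matrix.mulVec, dotProduct]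
  rw [show (∑ x, XMat k β (β i) l x * Y k β x) = _ from h2]
  simp [Pi.single_apply, apply_ite (Ideal.Quotient.mk (Ideal.span (rels k B β)))]

variable (k B β) in
/-- The universal framed point. -/
noncomputable def univPt : FramedPt k B β (RepAlg k B β) where
  ρ :=
    { toFun := XMat k β
      map_one' := by
        have := XMat_algebraMap (k := k) (β := β) 1
        rwa [map_one, map_one] at this
      map_mul' := XMat_mul
      map_zero' := by
        have := XMat_algebraMap (k := k) (β := β) 0
        rwa [map_zero, map_zero] at this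
      map_add' := XMat_add
      commutes' := XMat_algebraMap }
  c := Y k β
  frame := XMat_frame

theorem univPt_ρ (b : B) (i j : Fin g) : (univPt k B β).ρ b i j = X k β b i j := rfl

theorem univPt_c (j : Fin g) : (univPt k B β).c j = Y k β j := rfl

theorem ofFramedPt_X (P : FramedPt k B β A) (b : B) (i j : Fin g) :
    ofFramedPt P (X k β b i j) = P.ρ b i j := by
  exact aeval_genMat_apply P b i j

theorem ofFramedPt_Y (P : FramedPt k B β A) (j : Fin g) :
    ofFramedPt P (Y k β j) = P.c j := by
  exact aeval_genVec P j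

/-- Two algebra maps out of `RepAlg` agreeing on the generators are equal. -/
theorem algHom_ext {f f' : RepAlg k B β →ₐ[k] A}
    (hX : ∀ b i j, f (X k β b i j) = f' (X k β b i j)) (hY : ∀ j, f (Y k β j) = f' (Y k β j)) :
    f = f' := by
  apply Ideal.Quotient.algHom_ext
  apply MvPolynomial.algHom_ext
  rintro (⟨b, i, j⟩ | j)
  · exact hX b i j
  · exact hY j

end RepAlg

section RepEquiv

variable {k B β}
variable {A : Type w} [CommRing A] [Algebra k A] {A' : Type w'} [CommRing A'] [Algebra k A']

/-- **H1, part 2**: `RepAlg` represents framed points. -/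
noncomputable def repEquiv : (RepAlg k B β →ₐ[k] A) ≃ FramedPt k B β A where
  toFun f := (RepAlg.univPt k B β).map f
  invFun P := RepAlg.ofFramedPt P
  left_inv f := by
    apply RepAlg.algHom_ext
    · intro b i j
      rw [RepAlg.ofFramedPt_X, FramedPt.map_ρ, Matrix.map_apply, RepAlg.univPt_ρ]
    · intro j
      rw [RepAlg.ofFramedPt_Y, FramedPt.map_c, RepAlg.univPt_c]
  right_inv P := by
    apply FramedPt.ext'
    · apply AlgHom.ext
      intro b
      ext i j
      rw [FramedPt.map_ρ, Matrix.map_apply, RepAlg.univPt_ρ, RepAlg.ofFramedPt_X]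
    · ext j
      rw [FramedPt.map_c, RepAlg.univPt_c, RepAlg.ofFramedPt_Y]

theorem repEquiv_apply (f : RepAlg k B β →ₐ[k] A) :
    repEquiv f = (RepAlg.univPt k B β).map f := rfl

theorem FramedPt.map_map (ψ : A →ₐ[k] A') {A'' : Type*} [CommRing A''] [Algebra k A'']
    (f : A'' →ₐ[k] A) (P : FramedPt k B β A'') : (P.map f).map ψ = P.map (ψ.comp f) := by
  apply FramedPt.ext'
  · apply AlgHom.ext
    intro b
    ext i j
    simp only [FramedPt.map_ρ, Matrix.map_apply, AlgHom.comp_apply]
  · ext j
    simp only [FramedPt.map_c, AlgHom.comp_apply]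

/-- Naturality of `repEquiv`. -/
theorem repEquiv_comp (ψ : A →ₐ[k] A') (f : RepAlg k B β →ₐ[k] A) :
    repEquiv (ψ.comp f) = (repEquiv f).map ψ := by
  rw [repEquiv_apply, repEquiv_apply, FramedPt.map_map]

/-- **H1**: the `β`-framed Hilbert functor is represented by `RepAlg k B β`. -/
noncomputable def hilbChartEquiv :
    (RepAlg k B β →ₐ[k] A) ≃ {I : Ideal (A ⊗[k] B) // IsFramed k B β I} :=
  repEquiv.trans framedEquiv

theorem hilbChartEquiv_apply_coe (f : RepAlg k B β →ₐ[k] A) :
    ((hilbChartEquiv f : {I : Ideal (A ⊗[k] B) // IsFramed k B β I}) : Ideal (A ⊗[k] B)) =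
      ((RepAlg.univPt k B β).map f).ideal := rfl

/-- **H1, naturality**: base change of ideals corresponds to composition of algebra maps. -/
theorem hilbChartEquiv_comp (ψ : A →ₐ[k] A') (f : RepAlg k B β →ₐ[k] A) :
    ((hilbChartEquiv (ψ.comp f) : {I : Ideal (A' ⊗[k] B) // IsFramed k B β I}) :
        Ideal (A' ⊗[k] B)) =
      Ideal.map (tmap B ψ) (hilbChartEquiv f : {I : Ideal (A ⊗[k] B) // IsFramed k B β I}) := by
  rw [hilbChartEquiv_apply_coe, hilbChartEquiv_apply_coe, ← FramedPt.ideal_map,
    FramedPt.map_map]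

end RepEquiv

section FiniteType

variable {k B β}

theorem RepAlg.XMat_apply (b : B) (i j : Fin g) : RepAlg.XMat k β b i j = RepAlg.X k β b i j := rfl

theorem RepAlg.mk_X_inl (b : B) (i j : Fin g) :
    Ideal.Quotient.mk (Ideal.span (rels k B β)) (MvPolynomial.X (Sum.inl (b, i, j))) =
      RepAlg.X k β b i j := rfl

theorem RepAlg.mk_X_inr (j : Fin g) :
    Ideal.Quotient.mk (Ideal.span (rels k B β)) (MvPolynomial.X (Sum.inr j)) =
      RepAlg.Y k β j := rfl

/-- The generators of `RepAlg` attached to a generating set `s` of `B`. -/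
def RepAlg.genSet (β : Fin g → B) (s : Set B) : Set (RepAlg k B β) :=
  {x | ∃ t ∈ s, ∃ i j, x = RepAlg.X k β t i j} ∪ Set.range (RepAlg.Y k β)

theorem RepAlg.genSet_finite {s : Set B} (hs : s.Finite) : (RepAlg.genSet (k := k) β s).Finite := by
  refine Set.Finite.union ?_ (Set.finite_range _)
  have : {x | ∃ t ∈ s, ∃ i j, x = RepAlg.X k β t i j} =
      (fun p : B × Fin g × Fin g => RepAlg.X k β p.1 p.2.1 p.2.2) '' (s ×ˢ Set.univ) := by
    ext x
    constructor
    · rintro ⟨t, ht, i, j, rfl⟩
      exact ⟨(t, i, j), ⟨ht, Set.mem_univ _⟩, rfl⟩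
    · rintro ⟨⟨t, i, j⟩, ⟨ht, -⟩, rfl⟩
      exact ⟨t, ht, i, j, rfl⟩
  rw [this]
  exact (hs.prod Set.finite_univ).image _

theorem RepAlg.X_mem_adjoin {s : Set B} (hs : Algebra.adjoin k s = ⊤) (b : B) :
    ∀ i j, RepAlg.X k β b i j ∈ Algebra.adjoin k (RepAlg.genSet (k := k) β s) := by
  have hb : b ∈ Algebra.adjoin k s := by rw [hs]; trivial
  induction hb using Algebra.adjoin_induction with
  | mem t ht =>
    intro i j
    exact Algebra.subset_adjoin (Or.inl ⟨t, ht, i, j, rfl⟩)
  | algebraMap r =>
    intro i j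
    rw [← RepAlg.XMat_apply, RepAlg.XMat_algebraMap, Matrix.algebraMap_matrix_apply]
    split_ifs
    · exact Subalgebra.algebraMap_mem _ r
    · exact Subalgebra.zero_mem _
  | add b b' _ _ hb hb' =>
    intro i j
    rw [← RepAlg.XMat_apply, RepAlg.XMat_add, Matrix.add_apply]
    exact Subalgebra.add_mem _ (hb i j) (hb' i j)
  | mul b b' _ _ hb hb' =>
    intro i j
    rw [← RepAlg.XMat_apply, RepAlg.XMat_mul, Matrix.mul_apply]
    exact Subalgebra.sum_mem _ fun l _ => Subalgebra.mul_mem _ (hb i l) (hb' l j)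

theorem RepAlg.adjoin_genSet {s : Set B} (hs : Algebra.adjoin k s = ⊤) :
    Algebra.adjoin k (RepAlg.genSet (k := k) β s) = ⊤ := by
  rw [eq_top_iff]
  rintro x -
  obtain ⟨p, rfl⟩ := Ideal.Quotient.mk_surjective x
  induction p using MvPolynomial.induction_on with
  | C r => exact Subalgebra.algebraMap_mem _ r
  | add p q hp hq =>
    rw [map_add]
    exact Subalgebra.add_mem _ hp hq
  | mul_X p n hp =>
    rw [map_mul]
    refine Subalgebra.mul_mem _ hp ?_
    rcases n with ⟨b, i, j⟩ | j
    · rw [RepAlg.mk_X_inl]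
      exact RepAlg.X_mem_adjoin hs b i j
    · rw [RepAlg.mk_X_inr]
      exact Algebra.subset_adjoin (Or.inr ⟨j, rfl⟩)

/-- **H1, finiteness**: `RepAlg k B β` is a finitely generated `k`-algebra if `B` is. -/
theorem RepAlg.finiteType [h : Algebra.FiniteType k B] :
    Algebra.FiniteType k (RepAlg k B β) := by
  obtain ⟨s, hs⟩ := h.out
  refine ⟨⟨(RepAlg.genSet_finite (k := k) (β := β) s.finite_toSet).toFinset, ?_⟩⟩
  rw [Set.Finite.coe_toFinset]
  exact RepAlg.adjoin_genSet hs

end FiniteType

end Fermat.Agent.S25.H851
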